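import Fermat.Agent.S48.H668.F1Avatar
import Fermat.Agent.S48.H76.IGen

/-!
# S48 / Tower A1 / A1-RED leaf R4b2 (helper668): the image of `E · F1 M` in the full-level
field has bounded denominators at every cusp

`E` a field of characteristic `0` with `ι : E →+* ℂ`, `ζ ∈ Eˣ`, `ι ζ = e^{2πi/M}`, `𝒪` a discrete
valuation subring of `E` with uniformiser `w₀`.

* `isInt_smul_iactJd`       : every `SL₂(ℤ)`-translate of `j(dτ)`, `d ∣ M`, has an `𝒪`-INTEGRAL
                              `X`-expansion (`= jq(ζ^k X^n)`);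
* `iactFJd_mem_iactBd`, `iactF0_le_iactBd` : `E(j(dτ) : d ∣ M) ≤ H856.iactBd`;
* `lbc_mem_induction`       : generic induction principle for `laurentBaseChange L (adjoin ℚ S)`;
* `f1Emb_mem_iactBd`        : **`f1Emb (E · F1 M) ≤ H856.iactBd`**;
* `f1Emb_diamond_mem_gaussRing` : **the diamond automorphisms of `E · F1 M` preserve the Gauss
                              valuation ring** (given the `q`-expansion principle `qep0` of the base
                              `X₀(M)`, hypothesis of `H856.iact_stable`).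
-/

set_option autoImplicit false
set_option linter.unusedSectionVars false

noncomputable section

open ModularCurve HahnSeries UpperHalfPlane CongruenceSubgroup
open scoped MatrixGroups Manifold

namespace Fermat.Agent.S48.H668

open Fermat.Agent.S24 Fermat.Agent.S24.H997 Fermat.Agent.S24.H624 Fermat.Agent.S20.L1
open Fermat.Agent.S28 Fermat.Agent.S28.H748
open Fermat.Agent.S48.H76 Fermat.Agent.S48.H828 Fermat.Agent.S48.H648 Fermat.Agent.S48.F1
open Fermat.Agent.S48.H856 Fermat.Agent.S18.Alg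

/-! ### A generic induction principle -/

/-- A ring homomorphism from `L · ℚ(S)` to a field maps into a subfield `K` as soon as it maps the
constants and the generators into `K`. -/
theorem lbc_mem_induction {L : Type*} [Field L] [Algebra ℚ L] {S : Set (LaurentSeries ℚ)}
    {R : Type*} [Field R]
    (φ : laurentBaseChange L (IntermediateField.adjoin ℚ S) →+* R) (K : Subfield R)
    (hL : ∀ a : L, φ (algebraMap L _ a) ∈ K)
    (hS : ∀ (z : LaurentSeries ℚ) (hz : z ∈ S),
      φ ⟨coeffEmb L z, coeffEmb_mem_laurentBaseChange L (IntermediateField.subset_adjoin ℚ S hz)⟩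
        ∈ K)
    (f : laurentBaseChange L (IntermediateField.adjoin ℚ S)) : φ f ∈ K := by
  have key : ∀ (z : LaurentSeries ℚ) (hz : z ∈ IntermediateField.adjoin ℚ S),
      φ ⟨coeffEmb L z, coeffEmb_mem_laurentBaseChange L hz⟩ ∈ K := by
    intro z hz
    induction hz using IntermediateField.adjoin_induction with
    | mem x hx => exact hS x hx
    | algebraMap q =>
        have h1 : (⟨coeffEmb L (algebraMap ℚ (LaurentSeries ℚ) q),
            coeffEmb_mem_laurentBaseChange L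
              ((IntermediateField.adjoin ℚ S).algebraMap_mem q)⟩ :
              laurentBaseChange L (IntermediateField.adjoin ℚ S))
            = algebraMap L _ (algebraMap ℚ L q) :=
          Subtype.ext (coeffEmb_algebraMap q)
        rw [h1]
        exact hL _
    | add x y hx hy ihx ihy =>
        have h1 : (⟨coeffEmb L (x + y), coeffEmb_mem_laurentBaseChange L (add_mem hx hy)⟩ :
            laurentBaseChange L (IntermediateField.adjoin ℚ S))
            = ⟨coeffEmb L x, coeffEmb_mem_laurentBaseChange L hx⟩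
              + ⟨coeffEmb L y, coeffEmb_mem_laurentBaseChange L hy⟩ :=
          Subtype.ext (map_add (coeffEmb L) x y)
        rw [h1, map_add]
        exact K.add_mem ihx ihy
    | inv x hx ihx =>
        have h1 : (⟨coeffEmb L x⁻¹, coeffEmb_mem_laurentBaseChange L (inv_mem hx)⟩ :
            laurentBaseChange L (IntermediateField.adjoin ℚ S))
            = (⟨coeffEmb L x, coeffEmb_mem_laurentBaseChange L hx⟩ :
                laurentBaseChange L (IntermediateField.adjoin ℚ S))⁻¹ :=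
          Subtype.ext (map_inv₀ (coeffEmb L) x)
        rw [h1, map_inv₀]
        exact K.inv_mem ihx
    | mul x y hx hy ihx ihy =>
        have h1 : (⟨coeffEmb L (x * y), coeffEmb_mem_laurentBaseChange L (mul_mem hx hy)⟩ :
            laurentBaseChange L (IntermediateField.adjoin ℚ S))
            = ⟨coeffEmb L x, coeffEmb_mem_laurentBaseChange L hx⟩
              * ⟨coeffEmb L y, coeffEmb_mem_laurentBaseChange L hy⟩ :=
          Subtype.ext (map_mul (coeffEmb L) x y)
        rw [h1, map_mul]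
        exact K.mul_mem ihx ihy
  have key2 : ∀ (x : LaurentSeries L)
      (hx : x ∈ laurentBaseChange L (IntermediateField.adjoin ℚ S)), φ ⟨x, hx⟩ ∈ K := by
    intro x hx
    induction hx using IntermediateField.adjoin_induction with
    | mem x hx =>
        obtain ⟨z, hz, rfl⟩ := hx
        exact key z hz
    | algebraMap a => exact hL a
    | add x y hx hy ihx ihy =>
        have h1 : (⟨x + y, add_mem hx hy⟩ : laurentBaseChange L (IntermediateField.adjoin ℚ S))
            = ⟨x, hx⟩ + ⟨y, hy⟩ := rfl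
        rw [h1, map_add]
        exact K.add_mem ihx ihy
    | inv x hx ihx =>
        have h1 : (⟨x⁻¹, inv_mem hx⟩ : laurentBaseChange L (IntermediateField.adjoin ℚ S))
            = (⟨x, hx⟩ : laurentBaseChange L (IntermediateField.adjoin ℚ S))⁻¹ := rfl
        rw [h1, map_inv₀]
        exact K.inv_mem ihx
    | mul x y hx hy ihx ihy =>
        have h1 : (⟨x * y, mul_mem hx hy⟩ : laurentBaseChange L (IntermediateField.adjoin ℚ S))
            = ⟨x, hx⟩ * ⟨y, hy⟩ := rfl
        rw [h1, map_mul]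
        exact K.mul_mem ihx ihy
  exact key2 f.1 f.2

variable {E : Type*} [Field E] [CharZero E] {ι : E →+* ℂ} {M : ℕ} [NeZero M]
variable (ζ : Eˣ) (hζ : Units.map (ι : E →* ℂ) ζ = infRoot 1 M)

/-! ### The translates of `j(dτ)` -/

include hζ in
/-- The expansion of a translate of `j(dτ)` is `jq(ζ^k X^n)`. -/
theorem exists_infExp_compSL_Jd {d : ℕ} (hd : d ∣ M) (γ : SL(2, ℤ)) :
    ∃ (n : ℕ) (_ : NeZero n) (k : ℤ),
      InfExp M (compSL γ (Jd d))
        (coeffMap ι (qExpand E n (infTwist (ζ ^ k) (coeffEmb E jq)))) := by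
  have hM : 0 < M := Nat.pos_of_ne_zero (NeZero.ne M)
  have hd0 : 0 < d := Nat.pos_of_dvd_of_pos hd hM
  obtain ⟨γ', a, d', b, ha, hd', had, h00, h01, h10, h11⟩ := inf_exists_hnf d hd0 γ
  have hd'M : d' ∣ M := (Dvd.intro_left a had).trans hd
  obtain ⟨c, hc⟩ := hd'M
  have hc0 : 0 < c := by
    rcases Nat.eq_zero_or_pos c with h | h
    · rw [h, mul_zero] at hc; omega
    · exact h
  have hne : NeZero (a * c) := ⟨(Nat.mul_pos ha hc0).ne'⟩
  have h := inf_J_infAff_exp infExp_jFun (e := a * c) (N := M) b ha hd' hM (by rw [hc]; ring)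
  refine ⟨a * c, hne, b * c, ?_⟩
  have hroot : Units.map (ι : E →* ℂ) (ζ ^ (b * c)) = infRoot b d' := by
    rw [map_zpow, hζ, iact_infRoot_one_zpow, iact_infRoot_mul b hd' hc0 hc]
  have hser : coeffMap ι (qExpand E (a * c) (infTwist (ζ ^ (b * c)) (coeffEmb E jq)))
      = infGenExp (a * c) b d' := by
    rw [coeffMap_qExpand, iact_coeffMap_infTwist, iact_coeffMap_coeffEmb, hroot]
    rfl
  rw [hser]
  refine h.congr fun τ => ?_
  show jFun (infAff a b d' τ) = jFun (infAff d 0 1 (γ • τ))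
  rw [inf_aff_smul_eq hd0 ha hd' γ γ' h00 h01 h10 h11 τ, jFun_smul']

variable (𝒪 : ValuationSubring E) {w₀ : E}

include hζ in
theorem isInt_twist_jq (n : ℕ) [NeZero n] (k : ℤ) :
    IsInt 𝒪 (qExpand E n (infTwist (ζ ^ k) (coeffEmb E jq))) := by
  intro m
  by_cases hm : (n : ℤ) ∣ m
  · obtain ⟨r, rfl⟩ := hm
    rw [qExpand_coeff_mul, infTwist_coeff, coeffEmb_coeff]
    refine 𝒪.mul_mem _ _ ?_ ?_
    · obtain ⟨z, hz⟩ := coeff_jq_eq_intCast r
      rw [hz]
      have : algebraMap ℚ E ((z : ℤ) : ℚ) = (z : E) := by simp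
      rw [this]
      exact intCast_mem 𝒪 z
    · rw [← zpow_mul]
      exact zeta_zpow_mem ζ hζ 𝒪 _
  · rw [qExpand_coeff_of_not_dvd _ _ hm]
    exact 𝒪.zero_mem

include hζ in
/-- **Every translate of `j(dτ)` has an integral expansion.** -/
theorem isInt_smul_iactJd (γ : SL(2, ℤ)) {d : ℕ} (hd : d ∣ M) :
    IsInt 𝒪 (iactExp ι M (γ • iactJd ζ hζ d hd)) := by
  obtain ⟨n, hn, k, h⟩ := exists_infExp_compSL_Jd (ι := ι) ζ hζ hd γ⁻¹
  have h1 : InfExp M (compSL γ⁻¹ (Jd d))
      (coeffMap ι (iactExp ι M (γ • iactJd ζ hζ d hd))) := iactExp_spec (γ • iactJd ζ hζ d hd)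
  have h2 := inf_coeffMap_injective ι.injective (h.unique h1)
  rw [← h2]
  exact isInt_twist_jq ζ hζ 𝒪 n k

include hζ in
theorem isBd_smul_iactFJd (_hd : IsDiscrete 𝒪 w₀) (γ : SL(2, ℤ)) {d : ℕ} (hdM : d ∣ M) :
    IsBd 𝒪 (iactFieldExp ι M) (iactFC ι M w₀) (γ • iactFJd ζ hζ d hdM) := by
  refine isBd_of_isInt ?_
  rw [iactFJd, iact_smul_algebraMap, iactFieldExp_algebraMap]
  exact isInt_smul_iactJd ζ hζ 𝒪 γ hdM

include hζ in
/-- `j(dτ)` lies in the field `iactBd` of helper856's concrete `IgusaData`. -/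
theorem iactFJd_mem_iactBd (hd : IsDiscrete 𝒪 w₀) {d : ℕ} (hdM : d ∣ M) :
    iactFJd ζ hζ d hdM ∈ iactBd (ι := ι) (M := M) 𝒪 hd :=
  mem_iactBd_of_isBd 𝒪 hd fun γ => isBd_smul_iactFJd ζ hζ 𝒪 hd γ hdM

include hζ in
/-- `E(j(dτ) : d ∣ M) ≤ iactBd`. -/
theorem iactF0_le_iactBd (hd : IsDiscrete 𝒪 w₀) :
    iactF0 ζ hζ ≤ iactBd (ι := ι) (M := M) 𝒪 hd := by
  rw [iactF0, Subfield.closure_le]
  rintro y (⟨c, rfl⟩ | ⟨d, hdM, rfl⟩)
  · exact iactFC_mem_iactBd 𝒪 hd c
  · exact iactFJd_mem_iactBd ζ hζ 𝒪 hd hdM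

/-! ### The image of `E · F1 M` -/

theorem pAv_eq_iactP (a : ZMod M) : pAv ζ hζ a = iactP ζ hζ a := Subtype.ext rfl

omit [CharZero E] [NeZero M] in
/-- Induction principle for `E · F1 M`: a ring homomorphism to a field maps into a subfield `K`
as soon as it maps the constants and the generators `j(q^d)`, `P_a` into `K`. -/
theorem f1L_mem_induction [Algebra ℚ E] {R : Type*} [Field R] (φ : F1L E M →+* R)
    (K : Subfield R)
    (hL : ∀ a : E, φ (algebraMap E _ a) ∈ K)
    (hJ : ∀ (d : ℕ) [NeZero d] (hd : d ∣ M),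
      φ ⟨coeffEmb E (qExpand ℚ d jq), coeffEmb_mem_laurentBaseChange E (jqd_mem_F1 M hd)⟩ ∈ K)
    (hP : ∀ (a : ZMod M) (ha : a ≠ 0),
      φ ⟨coeffEmb E (divGen M a), coeffEmb_mem_laurentBaseChange E (divGen_mem_F1 M ha)⟩ ∈ K)
    (f : F1L E M) : φ f ∈ K :=
  lbc_mem_induction (L := E) (S := divisorExpansions M ∪ divGens M) φ K hL (by
    rintro z (⟨d, hd0, hd, rfl⟩ | ⟨a, ha, rfl⟩)
    · exact hJ d hd
    · exact hP a ha) f

include hζ in
/-- **R4b2**: the image of `E · F1 M` in the full-level field lies in `iactBd`. -/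
theorem f1Emb_mem_iactBd (hd : IsDiscrete 𝒪 w₀) (f : F1L E M) :
    f1Emb ζ hζ f ∈ iactBd (ι := ι) (M := M) 𝒪 hd := by
  refine f1L_mem_induction (f1Emb ζ hζ) (iactBd (ι := ι) (M := M) 𝒪 hd) ?_ ?_ ?_ f
  · intro a
    rw [f1Emb_algebraMap]
    exact iactFC_mem_iactBd 𝒪 hd a
  · intro d _ hdM
    rw [f1Emb_jqd ζ hζ hdM _ rfl]
    exact iactFJd_mem_iactBd ζ hζ 𝒪 hd hdM
  · intro a ha
    rw [f1Emb_divGen ζ hζ ha _ rfl, pAv_eq_iactP]
    exact iactP_mem_iactBd ζ hζ 𝒪 hd a

include hζ in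
theorem f1Emb_fieldRange_le_iactBd (hd : IsDiscrete 𝒪 w₀) :
    (f1Emb ζ hζ).fieldRange ≤ iactBd (ι := ι) (M := M) 𝒪 hd := by
  rintro _ ⟨f, rfl⟩
  exact f1Emb_mem_iactBd ζ hζ 𝒪 hd f

/-- **G_V in avatar form**: the diamond automorphisms of `E · F1 M` preserve the Gauss valuation
ring of the `X`-expansion (`γ ∈ Γ₀(M)` any matrix with lower right entry `≡ d`). -/
theorem f1Emb_diamond_mem_gaussRing (hd : IsDiscrete 𝒪 w₀)
    (hqep0 : ∀ b ∈ chart (iactF0 ζ hζ) (𝒪.toSubring.map (iactFC ι M)) (iactFJ ι M),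
      b * (iactFC ι M w₀)⁻¹ ∈ gaussRing 𝒪 (iactFieldExp ι M) →
        b * (iactFC ι M w₀)⁻¹ ∈ chart (iactF0 ζ hζ) (𝒪.toSubring.map (iactFC ι M))
          (iactFJ ι M))
    {γ : SL(2, ℤ)} (hγ : γ ∈ Gamma0 M) (d : (ZMod M)ˣ)
    (hdγ : (d : ZMod M) = ((γ 1 1 : ℤ) : ZMod M)) (σ : F1L E M ≃ₐ[E] F1L E M)
    (hσ : IsDiamond E M d σ) (f : F1L E M)
    (hf : f1Emb ζ hζ f ∈ gaussRing 𝒪 (iactFieldExp ι M)) :
    f1Emb ζ hζ (σ f) ∈ gaussRing 𝒪 (iactFieldExp ι M) := by
  rw [← smul_f1Emb ζ hζ hγ d hdγ σ hσ f]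
  exact iact_stable 𝒪 ζ hζ hd hqep0 γ (f1Emb_mem_iactBd ζ hζ 𝒪 hd f) hf

end Fermat.Agent.S48.H668
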