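import Fermat.Agent.S48.H76.Avatar
import Fermat.Agent.S48.H648.BrEmb
import Fermat.Agent.S48.H828.IActJd
import Fermat.Agent.S48.F1.Basic

/-!
# S48 / Tower A1 — BRIDGE `F1 → IACT` (helper668): the function field of `X₁(M)` inside the
full-level field

`E` a field of characteristic `0` with `ι : E →+* ℂ` and `ζ ∈ Eˣ`, `ι ζ = e^{2πi/M}`.

* `iactRat_of_mem_coeffSub`  : an expansion with coefficients in `ι(E)` is `E`-rational;
* `yW_smul_mem_iactRing`     : for every periodic weight `w` with values in `ι(E)` the normalised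
                               Eisenstein quotient `C₁₂⁻¹ · G_w / Δ` lies in `H828.iactRing ι M`
                               (holomorphic, `Γ(M)`-invariant, `E`-rational at EVERY cusp);
* `pAv ζ hζ a : iactRing ι M` : the avatar `H76.pFun M a` of the division value `P_a`;
  `iactExp_pAv`              : its `X`-expansion is `P_a(X^M)`;
  `smul_pAv`                 : `γ • pAv a = pAv (a · γ₁₁)` for `γ ∈ Γ₀(M)`;
* `coeffEmb_mem_avatarField_F1` : every element of `F1 M` has an avatar, hence (helper648's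
                               `H648.baseChangeEmb`) the embedding
  `f1Emb ζ hζ : E · F1 M →+* IActField ι M`, `iactFieldExp (f1Emb f) = f(X^M)`;
* `smul_f1Emb`               : **diamonds = action of `Γ₀(M)`**: for `γ ∈ Γ₀(M)` and the diamond
                               automorphism `σ` of `d = γ₁₁`, `γ • f1Emb f = f1Emb (σ f)`.
-/

set_option autoImplicit false
set_option linter.unusedSectionVars false

noncomputable section

open ModularCurve HahnSeries UpperHalfPlane CongruenceSubgroup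
open scoped MatrixGroups Manifold

namespace Fermat.Agent.S48.H668

open Fermat.Agent.S24 Fermat.Agent.S24.H997 Fermat.Agent.S24.H624
open Fermat.Agent.S28 Fermat.Agent.S28.H748
open Fermat.Agent.S48.H76 Fermat.Agent.S48.H828 Fermat.Agent.S48.H648 Fermat.Agent.S48.F1

variable {E : Type*} [Field E] [CharZero E] (ι : E →+* ℂ) (M : ℕ) [NeZero M]

/-! ### Rational expansions -/

/-- A complex Laurent series with coefficients in `ι(E)` is the image of a series over `E`. -/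
theorem exists_coeffMap_eq {Φ : LaurentSeries ℂ} (h : Φ ∈ coeffSub ι.range) :
    ∃ φ : LaurentSeries E, coeffMap ι φ = Φ := by
  classical
  have hc : ∀ n : ℤ, ∃ e : E, ι e = Φ.coeff n ∧ (Φ.coeff n = 0 → e = 0) := by
    intro n
    by_cases h0 : Φ.coeff n = 0
    · exact ⟨0, by rw [map_zero, h0], fun _ => rfl⟩
    · obtain ⟨e, he⟩ := h n
      exact ⟨e, he, fun h1 => absurd h1 h0⟩
  choose c hc1 hc2 using hc
  have hsupp : Function.support c ⊆ Φ.support := by
    intro n hn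
    rw [Function.mem_support] at hn
    rw [HahnSeries.mem_support]
    exact fun h0 => hn (hc2 n h0)
  refine ⟨⟨c, Φ.isPWO_support.mono hsupp⟩, ?_⟩
  ext n
  rw [coeffMap_coeff]
  exact hc1 n

variable {ι M}

theorem iactRat_of_mem_coeffSub {f : ℍ → ℂ} {Φ : LaurentSeries ℂ} (h : InfExp M f Φ)
    (hΦ : Φ ∈ coeffSub ι.range) : IActRat ι M f := by
  obtain ⟨φ, hφ⟩ := exists_coeffMap_eq ι hΦ
  exact ⟨φ, by rw [hφ]; exact h⟩

/-! ### The root of unity -/

theorem zetaPow_mem_range (ζ : Eˣ) (hζ : Units.map (ι : E →* ℂ) ζ = infRoot 1 M) (a : ℤ) :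
    zetaPow M a ∈ ι.range := by
  refine ⟨((ζ ^ a : Eˣ) : E), ?_⟩
  have h1 : ι ((ζ ^ a : Eˣ) : E) = ((Units.map (ι : E →* ℂ) ζ ^ a : ℂˣ) : ℂ) := by
    rw [← map_zpow]
    rfl
  rw [h1, hζ, infRoot_zpow_coe]
  unfold zetaPow
  rw [← Complex.exp_int_mul]
  congr 1
  push_cast
  ring

theorem natCast_inv_mem_range (n : ℕ) : ((n : ℂ))⁻¹ ∈ ι.range :=
  ⟨((n : E))⁻¹, by rw [map_inv₀, map_natCast]⟩

theorem ratCast_mem_range (q : ℚ) : ((q : ℚ) : ℂ) ∈ ι.range :=
  ⟨(q : E), map_ratCast ι q⟩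

/-! ### Eisenstein quotients in `iactRing` -/

/-- The normalised expansion `C₁₂⁻¹ · yWSeries` has coefficients in `ι(E)`. -/
theorem yWSeries_mem_coeffSub (ζ : Eˣ) (hζ : Units.map (ι : E →* ℂ) ζ = infRoot 1 M)
    (w : ZMod M → ZMod M → ℂ) (hw : ∀ x y, w x y ∈ ι.range) :
    HahnSeries.C (divC 11)⁻¹ * yWSeries M w ∈ coeffSub ι.range := by
  have hM : (M : ℂ) ≠ 0 := Nat.cast_ne_zero.mpr (NeZero.ne M)
  unfold yWSeries
  rw [← mul_assoc]
  refine (coeffSub _).mul_mem ?_ (qExpand_mem_coeffSub M (deltaInvSeriesC_mem_coeffSub _))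
  intro n
  rw [HahnSeries.C_mul_eq_smul, HahnSeries.coeff_smul, smul_eq_mul]
  by_cases hn : 0 ≤ n
  · obtain ⟨m, rfl⟩ := Int.eq_ofNat_of_zero_le hn
    rw [HahnSeries.ofPowerSeries_apply_coeff]
    have h1 := coefX_mem M (k := 11) (by norm_num) w ι.range (zetaPow_mem_range ζ hζ)
      (natCast_inv_mem_range M) (fun c => ratCast_mem_range _) hw m
    have e : (divC 11)⁻¹ * PowerSeries.coeff m (coefXSeries M w 11) =
        ((M : ℂ)⁻¹) ^ 11 * ((normC M 11)⁻¹ * coefX M w 11 m) := by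
      have h2 : divC 11 = normC M 11 * (M : ℂ) ^ 11 := by
        rw [← lipConst_mul_pow M 11]
        unfold normC
        ring
      have h3 := normC_ne_zero M 11
      rw [h2, coefXSeries, PowerSeries.coeff_mk]
      field_simp
    rw [e]
    exact ι.range.mul_mem (ι.range.pow_mem (natCast_inv_mem_range M) _) h1
  · rw [ModularCurve.ofPowerSeries_coeff_of_neg _ (by omega), mul_zero]
    exact ι.range.zero_mem

theorem infExp_smul_yW (w : ZMod M → ZMod M → ℂ) :
    InfExp M (fun τ => (divC 11)⁻¹ * yW M w τ) (HahnSeries.C (divC 11)⁻¹ * yWSeries M w) :=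
  (InfExp.const (divC 11)⁻¹).mul (infExp_yW M w)

theorem actW_mem_range {w : ZMod M → ZMod M → ℂ} (hw : ∀ x y, w x y ∈ ι.range) (γ : SL(2, ℤ))
    (x y : ZMod M) : actW M γ w x y ∈ ι.range :=
  hw _ _

theorem compSL_smul_yW (w : ZMod M → ZMod M → ℂ) (γ : SL(2, ℤ)) :
    compSL γ (fun τ => (divC 11)⁻¹ * yW M w τ) = fun τ => (divC 11)⁻¹ * yW M (actW M γ w) τ := by
  funext τ
  have h := congrFun (compSL_yW M w γ) τ
  simp only [compSL_apply] at h ⊢
  rw [h]

theorem actW_of_mem_Gamma (w : ZMod M → ZMod M → ℂ) {γ : SL(2, ℤ)} (hγ : γ ∈ Gamma M) :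
    actW M γ w = w := by
  have hγ' : γ⁻¹ ∈ Gamma M := inv_mem hγ
  rw [Gamma_mem] at hγ'
  obtain ⟨h00, h01, h10, h11⟩ := hγ'
  funext x y
  unfold actW
  rw [h00, h01, h10, h11]
  simp

/-- **Every normalised Eisenstein quotient `C₁₂⁻¹ G_w/Δ` with `E`-rational weight lies in
`iactRing ι M`.** -/
theorem yW_smul_mem_iactRing (ζ : Eˣ) (hζ : Units.map (ι : E →* ℂ) ζ = infRoot 1 M)
    (w : ZMod M → ZMod M → ℂ) (hw : ∀ x y, w x y ∈ ι.range) :
    (fun τ => (divC 11)⁻¹ * yW M w τ) ∈ iactRing ι M := by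
  refine ⟨mdifferentiable_const.mul (mdiff_yW M w), fun γ hγ => ?_, fun γ => ?_⟩
  · rw [compSL_smul_yW, actW_of_mem_Gamma w hγ]
  · rw [compSL_smul_yW]
    exact iactRat_of_mem_coeffSub (infExp_smul_yW _)
      (yWSeries_mem_coeffSub ζ hζ _ (actW_mem_range hw γ))

/-! ### The avatars of the division values -/

theorem typeI_mem_range (a x y : ZMod M) : typeI M a x y ∈ ι.range := by
  unfold typeI
  split_ifs
  · exact ι.range.one_mem
  · exact ι.range.zero_mem

theorem pFun_mem_iactRing (ζ : Eˣ) (hζ : Units.map (ι : E →* ℂ) ζ = infRoot 1 M) (a : ZMod M) :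
    pFun M a ∈ iactRing ι M :=
  yW_smul_mem_iactRing ζ hζ (typeI M a) (typeI_mem_range a)

/-- The avatar of `P_a` as an element of `iactRing ι M`. -/
def pAv (ζ : Eˣ) (hζ : Units.map (ι : E →* ℂ) ζ = infRoot 1 M) (a : ZMod M) : iactRing ι M :=
  ⟨pFun M a, pFun_mem_iactRing ζ hζ a⟩

variable (ζ : Eˣ) (hζ : Units.map (ι : E →* ℂ) ζ = infRoot 1 M)

@[simp]
theorem coe_pAv (a : ZMod M) : ((pAv ζ hζ a : iactRing ι M) : ℍ → ℂ) = pFun M a := rfl

/-- The `X`-expansion of the avatar is `P_a(X^M)`. -/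
theorem iactExp_pAv {a : ZMod M} (ha : a ≠ 0) :
    iactExp ι M (pAv ζ hζ a) = qExpand E M (divGenC E M a) := by
  apply iactExp_eq
  rw [coeffMap_qExpand, coeffMap_divGenC]
  exact infExp_level (infExp_pFun M ha)

/-- `γ • pAv a = pAv (a · γ₁₁)` for `γ ∈ Γ₀(M)`. -/
theorem smul_pAv {γ : SL(2, ℤ)} (hγ : γ ∈ Gamma0 M) (a : ZMod M) :
    γ • pAv ζ hζ a = pAv ζ hζ (a * ((γ 1 1 : ℤ) : ZMod M)) := by
  apply Subtype.ext
  funext τ
  rw [iact_smul_apply]
  have h := congrFun (compSL_pFun M a γ⁻¹ (inv_mem hγ)) τ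
  rw [compSL_apply] at h
  show pFun M a (γ⁻¹ • τ) = pFun M (a * ((γ 1 1 : ℤ) : ZMod M)) τ
  rw [h]
  congr 3
  rw [Matrix.SpecialLinearGroup.coe_inv, Matrix.adjugate_fin_two]
  rfl

/-! ### `F1 M` inside the avatar field -/

include ζ hζ in
theorem divGen_mem_avatarField {a : ZMod M} (ha : a ≠ 0) :
    coeffEmb E (divGen M a) ∈ avatarField ι M := by
  have e : coeffEmb E (divGen M a) = divGenC E M a := coeffMap_divGenC (algebraMap ℚ E) M a
  rw [e]
  exact mem_avatarField_of_ring (pAv ζ hζ a) (iactExp_pAv ζ hζ ha)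

include ζ hζ in
theorem jqd_mem_avatarField {d : ℕ} [NeZero d] (hd : d ∣ M) :
    coeffEmb E (qExpand ℚ d jq) ∈ avatarField ι M := by
  rw [← qExpand_coeffEmb]
  exact ⟨iactFJd ζ hζ d hd, iactFieldExp_Jd ζ hζ d hd⟩

include ζ hζ in
/-- **Every element of `F1 M` has an avatar in the full-level field.** -/
theorem coeffEmb_mem_avatarField_F1 :
    ∀ x ∈ F1 M, coeffEmb E x ∈ avatarField ι M := by
  refine coeffEmb_mem_avatarField_of_adjoin (divisorExpansions M ∪ divGens M) ?_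
  rintro s (⟨d, hd0, hd, rfl⟩ | ⟨a, ha, rfl⟩)
  · exact jqd_mem_avatarField ζ hζ hd
  · exact divGen_mem_avatarField ζ hζ ha

/-- **The bridge** `E · F1 M →+* IActField ι M`, `f(q) ↦ f(X^M)`. -/
def f1Emb : F1L E M →+* IActField ι M :=
  baseChangeEmb ι M (F1 M) (coeffEmb_mem_avatarField_F1 ζ hζ)

@[simp]
theorem iactFieldExp_f1Emb (f : F1L E M) :
    iactFieldExp ι M (f1Emb ζ hζ f) = qExpand E M (f : LaurentSeries E) :=
  iactFieldExp_baseChangeEmb _ _ f

theorem f1Emb_eq_iff (f : F1L E M) (y : IActField ι M) :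
    f1Emb ζ hζ f = y ↔ iactFieldExp ι M y = qExpand E M (f : LaurentSeries E) :=
  baseChangeEmb_eq_iff _ _ f y

theorem f1Emb_injective : Function.Injective (f1Emb ζ hζ) :=
  (f1Emb ζ hζ).injective

theorem f1Emb_algebraMap (c : E) : f1Emb ζ hζ (algebraMap E (F1L E M) c) = iactFC ι M c :=
  baseChangeEmb_algebraMap _ _ c

theorem f1Emb_divGen {a : ZMod M} (ha : a ≠ 0) (x : F1L E M)
    (hx : (x : LaurentSeries E) = coeffEmb E (divGen M a)) :
    f1Emb ζ hζ x = algebraMap (iactRing ι M) (IActField ι M) (pAv ζ hζ a) := by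
  rw [f1Emb_eq_iff, iactFieldExp_algebraMap, iactExp_pAv ζ hζ ha, hx]
  congr 1
  exact (coeffMap_divGenC (algebraMap ℚ E) M a).symm

theorem f1Emb_jqd {d : ℕ} [NeZero d] (hd : d ∣ M) (x : F1L E M)
    (hx : (x : LaurentSeries E) = coeffEmb E (qExpand ℚ d jq)) :
    f1Emb ζ hζ x = iactFJd ζ hζ d hd := by
  rw [f1Emb_eq_iff, iactFieldExp_Jd, hx, qExpand_coeffEmb]

/-! ### Diamonds = the action of `Γ₀(M)` -/

omit [CharZero E] [NeZero M] in
/-- Ring homomorphisms out of `E · F1 M` are determined on the constants and on the generators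
`j(q^d)`, `P_a`. -/
theorem f1L_ringHom_ext [Algebra ℚ E] {R : Type*} [DivisionRing R] (f g : F1L E M →+* R)
    (hL : ∀ a : E, f (algebraMap E _ a) = g (algebraMap E _ a))
    (hJ : ∀ (d : ℕ) [NeZero d] (hd : d ∣ M),
      f ⟨coeffEmb E (qExpand ℚ d jq), coeffEmb_mem_laurentBaseChange E (jqd_mem_F1 M hd)⟩ =
      g ⟨coeffEmb E (qExpand ℚ d jq), coeffEmb_mem_laurentBaseChange E (jqd_mem_F1 M hd)⟩)
    (hP : ∀ (a : ZMod M) (ha : a ≠ 0),
      f ⟨coeffEmb E (divGen M a), coeffEmb_mem_laurentBaseChange E (divGen_mem_F1 M ha)⟩ =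
      g ⟨coeffEmb E (divGen M a), coeffEmb_mem_laurentBaseChange E (divGen_mem_F1 M ha)⟩) :
    f = g :=
  lbc_ringHom_ext (L := E) (S := divisorExpansions M ∪ divGens M) f g hL (by
    rintro z (⟨d, hd0, hd, rfl⟩ | ⟨a, ha, rfl⟩)
    · exact hJ d hd
    · exact hP a ha)

/-- **Diamond operators are the action of `Γ₀(M)`**: if `γ ∈ Γ₀(M)` has lower right entry `≡ d`
and `σ` is the diamond automorphism of `d` (`P_a ↦ P_{da}`), then `γ • f1Emb f = f1Emb (σ f)`. -/
theorem smul_f1Emb {γ : SL(2, ℤ)} (hγ : γ ∈ Gamma0 M) (d : (ZMod M)ˣ)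
    (hd : (d : ZMod M) = ((γ 1 1 : ℤ) : ZMod M)) (σ : F1L E M ≃ₐ[E] F1L E M)
    (hσ : IsDiamond E M d σ) (f : F1L E M) :
    γ • f1Emb ζ hζ f = f1Emb ζ hζ (σ f) := by
  have key := f1L_ringHom_ext
    (((MulSemiringAction.toRingHom SL(2, ℤ) (IActField ι M) γ)).comp (f1Emb ζ hζ))
    ((f1Emb ζ hζ).comp (σ : F1L E M →+* F1L E M)) ?_ ?_ ?_
  · exact congrArg (fun φ => φ f) key
  · intro a
    simp only [RingHom.comp_apply, MulSemiringAction.toRingHom_apply, RingHom.coe_coe,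
      AlgEquiv.commutes]
    rw [f1Emb_algebraMap]
    exact iactG_fix_C _ ⟨γ, rfl⟩ a
  · intro d' _ hd'
    simp only [RingHom.comp_apply, MulSemiringAction.toRingHom_apply, RingHom.coe_coe]
    have hmem : coeffEmb E (qExpand ℚ d' jq) ∈
        laurentBaseChange E (modularFunctionFieldFull M) :=
      coeffEmb_mem_laurentBaseChange E
        (IntermediateField.subset_adjoin ℚ _ (mem_divisorExpansions M hd'))
    rw [hσ.1 _ hmem, f1Emb_jqd ζ hζ hd' _ rfl, iactFJd, iact_smul_algebraMap,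
      iact_smul_Jd_of_mem_Gamma0 ζ hζ hγ]
  · intro a ha
    simp only [RingHom.comp_apply, MulSemiringAction.toRingHom_apply, RingHom.coe_coe]
    have hda : (d : ZMod M) * a ≠ 0 := fun h0 => ha (by
      have := congrArg (fun t => ((d⁻¹ : (ZMod M)ˣ) : ZMod M) * t) h0
      simpa using this)
    have hσa := hσ.2 a
      ⟨coeffEmb E (divGen M a), coeffEmb_mem_laurentBaseChange E (divGen_mem_F1 M ha)⟩
      ⟨coeffEmb E (divGen M ((d : ZMod M) * a)),
        coeffEmb_mem_laurentBaseChange E (divGen_mem_F1 M hda)⟩ ha rfl rfl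
    rw [f1Emb_divGen ζ hζ ha _ rfl, hσa, f1Emb_divGen ζ hζ hda _ rfl, iact_smul_algebraMap,
      smul_pAv ζ hζ hγ, ← hd, mul_comm]

end Fermat.Agent.S48.H668
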