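import Fermat.Agent.S48.H668.AuxDefs

/-!
# S48 / INT / AUX — behaviour of `G₁`, `G₂` at the cusps (helper668)

For `γ ∈ SL₂(ℤ)` write `[[2,0],[0,1]] γ = γ'' U` with `γ'' ∈ SL₂(ℤ)` and `U` upper triangular.
Then `(G_j ∣[1] γ)⁴ = κ · θ_{σ j}⁸ ∘ U` where `σ` is the permutation of `θ₃⁸, θ₄⁸, θ₂⁸` attached
to `γ''`.  Only `θ₂` vanishes at `i∞`, so at most one of `G₁ ∣ γ`, `G₂ ∣ γ` does.
-/

set_option autoImplicit false

namespace Fermat.Agent.S48.H668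

open Complex Real ModularForm Filter CongruenceSubgroup Matrix
open scoped MatrixGroups ModularForm Manifold Topology UpperHalfPlane

noncomputable section

/-- The point `2 z`. -/
def dblPt (z : ℍ) : ℍ := ⟨2 * z, by simp [z.im_pos]⟩

/-- The point `(z + j) / 2`. -/
def halfPt (j : ℤ) (z : ℍ) : ℍ := ⟨((z : ℂ) + j) / 2, by simp [z.im_pos]⟩

@[simp] lemma coe_dblPt (z : ℍ) : ((dblPt z : ℍ) : ℂ) = 2 * z := rfl
@[simp] lemma coe_halfPt (j : ℤ) (z : ℍ) : ((halfPt j z : ℍ) : ℂ) = ((z : ℂ) + j) / 2 := rfl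

lemma im_dblPt (z : ℍ) : (dblPt z).im = 2 * z.im := by
  show (2 * (z : ℂ)).im = _; simp

lemma im_halfPt (j : ℤ) (z : ℍ) : (halfPt j z).im = z.im / 2 := by
  show (((z : ℂ) + j) / 2).im = _; simp

lemma th8_smul (γ : SL(2, ℤ)) (σ : Equiv.Perm (Fin 3))
    (hσ : ∀ i, th8 i ∣[(4 : ℤ)] γ = th8 (σ i)) (i : Fin 3) (w : ℍ) :
    th8 i (γ • w) = th8 (σ i) w * ((γ 1 0 : ℂ) * w + (γ 1 1 : ℂ)) ^ 4 := by
  have h := congrFun (hσ i) w
  rw [SL_slash_apply, denom_int, _root_.zpow_neg] at h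
  have hd := denom_int_ne_zero γ w
  rw [← h, show ((γ 1 0 : ℂ) * w + (γ 1 1 : ℂ)) ^ (4 : ℤ) = ((γ 1 0 : ℂ) * w + (γ 1 1 : ℂ)) ^ 4 by
    norm_cast]
  field_simp

lemma g1_pow_four (z : ℍ) : g1 z ^ 4 = th8 0 (dblPt z) := by
  rw [g1_apply, ← pow_mul]; rfl

lemma g2_pow_four (z : ℍ) : g2 z ^ 4 = th8 1 (dblPt z) := by
  rw [g2_apply, ← pow_mul]; rfl

/-- The decomposition `[[2,0],[0,1]] γ = γ'' U`. -/
lemma exists_hermite (γ : SL(2, ℤ)) :
    ∃ (γ'' : SL(2, ℤ)) (κ : ℂ) (w : ℍ → ℍ), κ ≠ 0 ∧ (∀ z, z.im / 2 ≤ (w z).im) ∧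
      ∀ z : ℍ, dblPt (γ • z) = γ'' • w z ∧
        (γ'' 1 0 : ℂ) * (w z) + (γ'' 1 1 : ℂ) = κ * ((γ 1 0 : ℂ) * z + (γ 1 1 : ℂ)) := by
  have hdet := γ.det_coe
  rw [Matrix.det_fin_two] at hdet
  rcases Int.even_or_odd (γ 1 0) with ⟨c', hc'⟩ | hodd
  · -- `c = 2 c'`
    refine ⟨⟨!![γ 0 0, 2 * γ 0 1; c', γ 1 1], ?_⟩, 1, dblPt, one_ne_zero, fun z => ?_, fun z => ?_⟩
    · rw [Matrix.det_fin_two]
      simp only [Matrix.of_apply, Matrix.cons_val', Matrix.cons_val_zero, Matrix.cons_val_one,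
        Matrix.cons_val_fin_one]
      have : (γ : Matrix (Fin 2) (Fin 2) ℤ) 1 0 = c' + c' := hc'
      rw [this] at hdet
      linear_combination hdet
    · rw [im_dblPt]; have := z.im_pos; linarith
    · have hc : ((γ 1 0 : ℤ) : ℂ) = 2 * c' := by
        have : (γ 1 0 : ℤ) = 2 * c' := by rw [hc']; ring
        exact_mod_cast this
      have hden : ((c' : ℤ) : ℂ) * (dblPt z : ℂ) + (γ 1 1 : ℂ) =
          (γ 1 0 : ℂ) * z + (γ 1 1 : ℂ) := by
        rw [coe_dblPt, hc]; ring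
      constructor
      · apply UpperHalfPlane.ext
        rw [coe_dblPt, coe_smul_int, coe_smul_int]
        show _ = (((γ 0 0 : ℤ) : ℂ) * (dblPt z : ℂ) + ((2 * γ 0 1 : ℤ) : ℂ)) /
          (((c' : ℤ) : ℂ) * (dblPt z : ℂ) + (γ 1 1 : ℂ))
        rw [hden, coe_dblPt]
        push_cast
        ring
      · show ((c' : ℤ) : ℂ) * (dblPt z : ℂ) + (γ 1 1 : ℂ) = _
        rw [hden, one_mul]
  · -- `c` odd
    have hcop : IsCoprime (2 * γ 0 0) (γ 1 0) := by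
      refine IsCoprime.mul_left ?_ ?_
      · rw [Int.isCoprime_iff_gcd_eq_one]
        obtain ⟨k, hk⟩ := hodd
        rw [hk]
        simp
      · exact ⟨γ 1 1, -γ 0 1, by linear_combination hdet⟩
    obtain ⟨y, v, hyv⟩ := hcop
    -- `y * (2a) + v * c = 1`; put `x = -v`
    set j : ℤ := 2 * γ 0 1 * y + γ 1 1 * v with hj
    have hj1 : γ 1 0 * j + 2 * y = γ 1 1 := by
      rw [hj]; linear_combination (γ 1 1) * hyv - 2 * y * hdet
    have hj2 : γ 0 0 * j - v = γ 0 1 := by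
      rw [hj]; linear_combination (γ 0 1) * hyv + v * hdet
    refine ⟨⟨!![2 * γ 0 0, -v; γ 1 0, y], ?_⟩, 1 / 2, halfPt j, by norm_num, fun z => ?_,
      fun z => ?_⟩
    · rw [Matrix.det_fin_two]
      simp only [Matrix.of_apply, Matrix.cons_val', Matrix.cons_val_zero, Matrix.cons_val_one,
        Matrix.cons_val_fin_one]
      linear_combination hyv
    · rw [im_halfPt]
    · have e1 : ((γ 1 0 : ℤ) : ℂ) * (j : ℂ) + 2 * (y : ℂ) = ((γ 1 1 : ℤ) : ℂ) := by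
        exact_mod_cast hj1
      have e2 : ((γ 0 0 : ℤ) : ℂ) * (j : ℂ) - (v : ℂ) = ((γ 0 1 : ℤ) : ℂ) := by
        exact_mod_cast hj2
      have hden : ((γ 1 0 : ℤ) : ℂ) * (halfPt j z : ℂ) + ((y : ℤ) : ℂ) =
          1 / 2 * ((γ 1 0 : ℂ) * z + (γ 1 1 : ℂ)) := by
        rw [coe_halfPt, ← e1]; ring
      have hd0 := denom_int_ne_zero γ z
      constructor
      · apply UpperHalfPlane.ext
        rw [coe_dblPt, coe_smul_int, coe_smul_int]
        show _ = (((2 * γ 0 0 : ℤ) : ℂ) * (halfPt j z : ℂ) + ((-v : ℤ) : ℂ)) /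
          (((γ 1 0 : ℤ) : ℂ) * (halfPt j z : ℂ) + ((y : ℤ) : ℂ))
        rw [hden, coe_halfPt, ← e2]
        push_cast
        field_simp
        ring
      · exact hden

/-- **Norm formula**: `(G_j ∣[1] γ)⁴ = κ · θ_{σ j}⁸ ∘ w`. -/
theorem exists_slash_pow_four (γ : SL(2, ℤ)) :
    ∃ (σ : Equiv.Perm (Fin 3)) (κ : ℂ) (w : ℍ → ℍ), κ ≠ 0 ∧ (∀ z, z.im / 2 ≤ (w z).im) ∧
      ∀ z : ℍ, ((g1 ∣[(1 : ℤ)] γ) z) ^ 4 = κ * th8 (σ 0) (w z) ∧
        ((g2 ∣[(1 : ℤ)] γ) z) ^ 4 = κ * th8 (σ 1) (w z) := by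
  obtain ⟨γ'', κ, w, hκ, him, hw⟩ := exists_hermite γ
  obtain ⟨σ, hσ⟩ := th8_slash_perm γ''
  refine ⟨σ, κ ^ 4, w, pow_ne_zero _ hκ, him, fun z => ?_⟩
  obtain ⟨hpt, hden⟩ := hw z
  have hd0 := denom_int_ne_zero γ z
  constructor
  · rw [slash_one_apply, div_pow, g1_pow_four, hpt, th8_smul γ'' σ hσ, hden, mul_pow]
    field_simp
  · rw [slash_one_apply, div_pow, g2_pow_four, hpt, th8_smul γ'' σ hσ, hden, mul_pow]
    field_simp

/-! ### Bounds -/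

/-- Upper bound for the `θ⁸` near `i∞`. -/
def th8Bound : ℝ := (5 / 3) ^ 8 + thCconst ^ 8

lemma norm_th8_le (i : Fin 3) (w : ℍ) (hw : 1 ≤ w.im) : ‖th8 i w‖ ≤ th8Bound := by
  have hw' : 1 ≤ (w : ℂ).im := hw
  have hC := thCconst_nonneg
  unfold th8Bound
  fin_cases i
  · show ‖thA w ^ 8‖ ≤ _
    rw [norm_pow]
    have := pow_le_pow_left₀ (norm_nonneg _) (norm_thA_le hw') 8
    have : (0 : ℝ) ≤ thCconst ^ 8 := by positivity
    linarith
  · show ‖thB w ^ 8‖ ≤ _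
    rw [norm_pow]
    have := pow_le_pow_left₀ (norm_nonneg _) (norm_thB_le hw') 8
    have : (0 : ℝ) ≤ thCconst ^ 8 := by positivity
    linarith
  · show ‖thC w ^ 8‖ ≤ _
    rw [norm_pow]
    have h1 : ‖thC w‖ ≤ thCconst := by
      refine (norm_thC_le hw').trans ?_
      have : rexp (-π * (w : ℂ).im / 4) ≤ 1 := by
        rw [Real.exp_le_one_iff]
        have := Real.pi_pos
        have : 0 ≤ π * (w : ℂ).im := by positivity
        linarith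
      calc thCconst * rexp (-π * (w : ℂ).im / 4) ≤ thCconst * 1 :=
            mul_le_mul_of_nonneg_left this hC
        _ = thCconst := mul_one _
    have := pow_le_pow_left₀ (norm_nonneg _) h1 8
    have : (0 : ℝ) ≤ (5 / 3 : ℝ) ^ 8 := by positivity
    linarith

lemma norm_th8_ge (i : Fin 3) (hi : i ≠ 2) (w : ℍ) (hw : 1 ≤ w.im) :
    (1 / 3 : ℝ) ^ 8 ≤ ‖th8 i w‖ := by
  have hw' : 1 ≤ (w : ℂ).im := hw
  fin_cases i
  · show _ ≤ ‖thA w ^ 8‖
    rw [norm_pow]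
    exact pow_le_pow_left₀ (by norm_num) (norm_thA_ge hw') 8
  · show _ ≤ ‖thB w ^ 8‖
    rw [norm_pow]
    exact pow_le_pow_left₀ (by norm_num) (norm_thB_ge hw') 8
  · exact absurd rfl hi

lemma le_of_pow_four_le {x M : ℝ} (hx : 0 ≤ x) (h : x ^ 4 ≤ M) : x ≤ 1 + M := by
  by_cases h1 : x ≤ 1
  · have : 0 ≤ M := (by positivity : (0 : ℝ) ≤ x ^ 4).trans h
    linarith
  · rw [not_le] at h1
    have : x ≤ x ^ 4 := by
      have : x * 1 ≤ x * x ^ 3 := by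
        apply mul_le_mul_of_nonneg_left _ hx
        exact one_le_pow₀ h1.le
      calc x = x * 1 := (mul_one x).symm
        _ ≤ x * x ^ 3 := this
        _ = x ^ 4 := by ring
    linarith

lemma ge_of_pow_four_ge {x m : ℝ} (hx : 0 ≤ x) (h : m ≤ x ^ 4) : min 1 m ≤ x := by
  by_cases h1 : 1 ≤ x
  · exact (min_le_left _ _).trans h1
  · rw [not_le] at h1
    have : x ^ 4 ≤ x := by
      have : x * x ^ 3 ≤ x * 1 := by
        apply mul_le_mul_of_nonneg_left _ hx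
        exact pow_le_one₀ hx h1.le
      calc x ^ 4 = x * x ^ 3 := by ring
        _ ≤ x * 1 := this
        _ = x := mul_one x
    exact (min_le_right _ _).trans (h.trans this)

/-- `G₁ ∣ γ` and `G₂ ∣ γ` are bounded at `i∞`. -/
theorem isBoundedAtImInfty_slash (γ : SL(2, ℤ)) :
    UpperHalfPlane.IsBoundedAtImInfty (g1 ∣[(1 : ℤ)] γ) ∧
      UpperHalfPlane.IsBoundedAtImInfty (g2 ∣[(1 : ℤ)] γ) := by
  obtain ⟨σ, κ, w, hκ, him, hw⟩ := exists_slash_pow_four γ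
  constructor <;>
  · rw [UpperHalfPlane.isBoundedAtImInfty_iff]
    refine ⟨1 + ‖κ‖ * th8Bound, 2, fun z hz => ?_⟩
    have hwz : 1 ≤ (w z).im := by have := him z; linarith
    apply le_of_pow_four_le (norm_nonneg _)
    rw [← norm_pow]
    first
    | rw [(hw z).1, norm_mul]
      exact mul_le_mul_of_nonneg_left (norm_th8_le _ _ hwz) (norm_nonneg _)
    | rw [(hw z).2, norm_mul]
      exact mul_le_mul_of_nonneg_left (norm_th8_le _ _ hwz) (norm_nonneg _)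

/-- **CUSP**: at every cusp one of `G₁`, `G₂` is bounded below. -/
theorem exists_lower_bound (γ : SL(2, ℤ)) :
    ∃ c : ℝ, 0 < c ∧ ∃ Y : ℝ,
      (∀ z : ℍ, Y ≤ z.im → c ≤ ‖(g1 ∣[(1 : ℤ)] γ) z‖) ∨
      (∀ z : ℍ, Y ≤ z.im → c ≤ ‖(g2 ∣[(1 : ℤ)] γ) z‖) := by
  obtain ⟨σ, κ, w, hκ, him, hw⟩ := exists_slash_pow_four γ
  have hκ' : 0 < ‖κ‖ := norm_pos_iff.mpr hκ
  refine ⟨min 1 (‖κ‖ * (1 / 3) ^ 8), lt_min one_pos (by positivity), 2, ?_⟩
  by_cases h0 : σ 0 = 2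
  · right
    have h1 : σ 1 ≠ 2 := by
      intro h; rw [← h0] at h
      exact absurd (σ.injective h) (by decide)
    intro z hz
    have hwz : 1 ≤ (w z).im := by have := him z; linarith
    apply ge_of_pow_four_ge (norm_nonneg _)
    rw [← norm_pow, (hw z).2, norm_mul]
    exact mul_le_mul_of_nonneg_left (norm_th8_ge _ h1 _ hwz) (norm_nonneg _)
  · left
    intro z hz
    have hwz : 1 ≤ (w z).im := by have := him z; linarith
    apply ge_of_pow_four_ge (norm_nonneg _)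
    rw [← norm_pow, (hw z).1, norm_mul]
    exact mul_le_mul_of_nonneg_left (norm_th8_ge _ h0 _ hwz) (norm_nonneg _)

end

end Fermat.Agent.S48.H668
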