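import Mathlib

/-!
# S48 / INT / AUX — generators of `Γ₁(4)` (helper668)

`Γ₁(4)` is generated by `T = [[1,1],[0,1]]` and `W = [[1,0],[4,1]]`; consequently a function
which is slash-invariant under `T` and `W` is slash-invariant under `Γ₁(4)`.
-/

set_option autoImplicit false

namespace Fermat.Agent.S48.H668

open Matrix ModularGroup CongruenceSubgroup
open scoped MatrixGroups ModularForm

/-- The lower unipotent matrix `[[1,0],[m,1]]`. -/
def lowU (m : ℤ) : SL(2, ℤ) := ⟨!![1, 0; m, 1], by simp [Matrix.det_fin_two]⟩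

@[simp] lemma lowU_coe (m : ℤ) : (lowU m : Matrix (Fin 2) (Fin 2) ℤ) = !![1, 0; m, 1] := rfl

lemma lowU_mul (a b : ℤ) : lowU a * lowU b = lowU (a + b) := by
  ext i j
  fin_cases i <;> fin_cases j <;> simp [lowU, Matrix.mul_apply, Fin.sum_univ_two, add_comm]

lemma lowU_zero : lowU 0 = 1 := by
  ext i j
  fin_cases i <;> fin_cases j <;> simp [lowU]

lemma lowU_inv (a : ℤ) : (lowU a)⁻¹ = lowU (-a) := by
  rw [inv_eq_iff_mul_eq_one, lowU_mul, add_neg_cancel, lowU_zero]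

/-- The subgroup generated by `T` and `W = lowU 4`. -/
def gen4 : Subgroup SL(2, ℤ) := Subgroup.closure {T, lowU 4}

lemma T_mem_gen4 : T ∈ gen4 := Subgroup.subset_closure (by simp)

lemma W_mem_gen4 : lowU 4 ∈ gen4 := Subgroup.subset_closure (by simp)

lemma lowU_four_mul_mem_gen4 (m : ℤ) : lowU (4 * m) ∈ gen4 := by
  induction m using Int.induction_on with
  | zero => simpa [lowU_zero] using gen4.one_mem
  | succ n ih =>
    have : lowU (4 * ((n : ℤ) + 1)) = lowU (4 * n) * lowU 4 := by rw [lowU_mul, mul_add, mul_one]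
    rw [this]; exact gen4.mul_mem ih W_mem_gen4
  | pred n ih =>
    have : lowU (4 * (-(n : ℤ) - 1)) = lowU (4 * -(n : ℤ)) * (lowU 4)⁻¹ := by
      rw [lowU_inv, lowU_mul, mul_sub, mul_one, sub_eq_add_neg]
    rw [this]; exact gen4.mul_mem ih (gen4.inv_mem W_mem_gen4)

lemma exists_near (x m : ℤ) (hm : m ≠ 0) : ∃ n : ℤ, 2 * |x - n * m| ≤ |m| := by
  have hpos : 0 < m.natAbs := Int.natAbs_pos.mpr hm
  refine ⟨Int.bdiv x m.natAbs * Int.sign m, ?_⟩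
  have h1 : Int.bdiv x m.natAbs * Int.sign m * m = (m.natAbs : ℤ) * Int.bdiv x m.natAbs := by
    rw [mul_assoc, Int.sign_mul_self_eq_natAbs, mul_comm]
  have h2 : x - Int.bdiv x m.natAbs * Int.sign m * m = Int.bmod x m.natAbs := by
    rw [h1]; have := Int.bdiv_add_bmod x m.natAbs; linarith
  rw [h2]
  have h3 := Int.bmod_lt (x := x) hpos
  have h4 := Int.le_bmod (x := x) hpos
  have h5 : |m| = (m.natAbs : ℤ) := (Int.natCast_natAbs m).symm
  rw [h5]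
  rcases abs_cases (Int.bmod x m.natAbs) with ⟨h, _⟩ | ⟨h, _⟩ <;> rw [h] <;> omega

lemma T_zpow_mem_Gamma1 (N : ℕ) (n : ℤ) : T ^ n ∈ Gamma1 N := by
  rw [Gamma1_mem]
  simp [coe_T_zpow]

lemma lowU_mem_Gamma1_four (m : ℤ) : lowU (4 * m) ∈ Gamma1 4 := by
  rw [Gamma1_mem]
  refine ⟨by simp [lowU], by simp [lowU], ?_⟩
  simp only [lowU]
  show (((4 * m : ℤ)) : ZMod 4) = 0
  push_cast
  have : (4 : ZMod 4) = 0 := by decide
  rw [this, zero_mul]

lemma mul_T_zpow_apply (γ : SL(2, ℤ)) (k : ℤ) :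
    (γ * T ^ k) 1 0 = γ 1 0 ∧ (γ * T ^ k) 1 1 = γ 1 0 * k + γ 1 1 := by
  constructor <;>
  simp [Matrix.SpecialLinearGroup.coe_mul, coe_T_zpow, Matrix.mul_apply, Fin.sum_univ_two]

lemma mul_lowU_apply (γ : SL(2, ℤ)) (k : ℤ) :
    (γ * lowU k) 1 0 = γ 1 0 + γ 1 1 * k ∧ (γ * lowU k) 1 1 = γ 1 1 := by
  constructor <;>
  simp [Matrix.SpecialLinearGroup.coe_mul, lowU, Matrix.mul_apply, Fin.sum_univ_two]

lemma eq_T_zpow_of_lower_left_zero (γ : SL(2, ℤ)) (hγ : γ ∈ Gamma1 4) (hc : γ 1 0 = 0) :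
    γ = T ^ (γ 0 1) := by
  have hdet := γ.det_coe
  rw [Matrix.det_fin_two] at hdet
  have hc' : (γ : Matrix (Fin 2) (Fin 2) ℤ) 1 0 = 0 := hc
  rw [hc', mul_zero, sub_zero] at hdet
  rw [Gamma1_mem] at hγ
  have hd : (((γ : Matrix (Fin 2) (Fin 2) ℤ) 1 1 : ℤ) : ZMod 4) = 1 := hγ.2.1
  rcases Int.eq_one_or_neg_one_of_mul_eq_one' hdet with ⟨ha, hd1⟩ | ⟨ha, hd1⟩
  · ext i j
    fin_cases i <;> fin_cases j <;> simp [coe_T_zpow, ha, hd1, hc']
  · exfalso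
    rw [hd1] at hd
    revert hd; decide

theorem Gamma1_four_le_gen4 : Gamma1 4 ≤ gen4 := by
  intro γ hγ
  induction hn : (γ 1 0).natAbs using Nat.strong_induction_on generalizing γ with
  | _ n ih =>
    by_cases hc : γ 1 0 = 0
    · rw [eq_T_zpow_of_lower_left_zero γ hγ hc]
      exact gen4.zpow_mem T_mem_gen4 _
    · -- first reduce `d` modulo `c`
      obtain ⟨k, hk⟩ := exists_near (γ 1 1) (γ 1 0) hc
      set γ₁ : SL(2, ℤ) := γ * T ^ (-k) with hγ₁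
      have hγ₁mem : γ₁ ∈ Gamma1 4 := (Gamma1 4).mul_mem hγ (T_zpow_mem_Gamma1 4 _)
      obtain ⟨h10, h11⟩ := mul_T_zpow_apply γ (-k)
      have hmem := (Gamma1_mem 4 γ₁).mp hγ₁mem
      have hd4 : ((γ₁ 1 1 : ℤ) : ZMod 4) = ((1 : ℤ) : ZMod 4) := by simpa using hmem.2.1
      have hc4 : ((γ₁ 1 0 : ℤ) : ZMod 4) = ((0 : ℤ) : ZMod 4) := by simpa using hmem.2.2
      rw [ZMod.intCast_eq_intCast_iff_dvd_sub] at hd4 hc4
      have hd4' : (4 : ℤ) ∣ 1 - γ₁ 1 1 := by exact_mod_cast hd4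
      have hc4' : (4 : ℤ) ∣ 0 - γ₁ 1 0 := by exact_mod_cast hc4
      have e1 : γ₁ 1 0 = γ 1 0 := h10
      have e2 : γ₁ 1 1 = γ 1 1 - k * γ 1 0 := by rw [h11]; ring
      have hk' : 2 * |γ₁ 1 1| ≤ |γ₁ 1 0| := by rw [e1, e2]; exact hk
      have hd0 : γ₁ 1 1 ≠ 0 := by
        intro h; rw [h] at hd4'; omega
      have hlt : 2 * |γ₁ 1 1| < |γ₁ 1 0| := by
        rcases abs_cases (γ₁ 1 1) with ⟨h1, _⟩ | ⟨h1, _⟩ <;>
        rcases abs_cases (γ₁ 1 0) with ⟨h2, _⟩ | ⟨h2, _⟩ <;>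
        rw [h1, h2] at hk' ⊢ <;> omega
      -- then reduce `c` modulo `4 d`
      have h4d : 4 * γ₁ 1 1 ≠ 0 := by omega
      obtain ⟨m, hm⟩ := exists_near (γ₁ 1 0) (4 * γ₁ 1 1) h4d
      set γ₂ : SL(2, ℤ) := γ₁ * lowU (4 * (-m)) with hγ₂
      have hγ₂mem : γ₂ ∈ Gamma1 4 := (Gamma1 4).mul_mem hγ₁mem (lowU_mem_Gamma1_four _)
      obtain ⟨g10, g11⟩ := mul_lowU_apply γ₁ (4 * (-m))
      have e3 : γ₂ 1 0 = γ₁ 1 0 - m * (4 * γ₁ 1 1) := by rw [g10]; ring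
      have hlt2 : (γ₂ 1 0).natAbs < n := by
        rw [← hn, ← e1]
        have hm' : 2 * |γ₂ 1 0| ≤ |4 * γ₁ 1 1| := by rw [e3]; exact hm
        rw [abs_mul] at hm'
        have : |γ₂ 1 0| < |γ₁ 1 0| := by
          have h4 : |(4 : ℤ)| = 4 := by norm_num
          rw [h4] at hm'
          omega
        rw [Int.abs_eq_natAbs, Int.abs_eq_natAbs] at this
        exact_mod_cast this
      have hγ₂gen : γ₂ ∈ gen4 := ih _ hlt2 hγ₂mem rfl
      have : γ = γ₂ * lowU (4 * m) * T ^ k := by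
        rw [hγ₂, hγ₁, mul_assoc (γ * T ^ (-k)), lowU_mul]
        simp [lowU_zero]
      rw [this]
      exact gen4.mul_mem (gen4.mul_mem hγ₂gen (lowU_four_mul_mem_gen4 m))
        (gen4.zpow_mem T_mem_gen4 k)

/-- **GEN4**: slash-invariance under `T` and `W = [[1,0],[4,1]]` implies slash-invariance under
`Γ₁(4)`. -/
theorem slash_eq_of_mem_Gamma1_four {f : UpperHalfPlane → ℂ} {k : ℤ}
    (hT : f ∣[k] T = f) (hW : f ∣[k] lowU 4 = f) (γ : SL(2, ℤ)) (hγ : γ ∈ Gamma1 4) :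
    f ∣[k] γ = f := by
  have hmem : γ ∈ gen4 := Gamma1_four_le_gen4 hγ
  unfold gen4 at hmem
  clear hγ
  induction hmem using Subgroup.closure_induction with
  | mem x hx =>
    rcases hx with rfl | rfl
    · exact hT
    · exact hW
  | one => simp
  | mul x y _ _ hx hy => rw [SlashAction.slash_mul, hx, hy]
  | inv x _ hx =>
    nth_rewrite 1 [← hx]
    rw [← SlashAction.slash_mul]
    simp

end Fermat.Agent.S48.H668
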