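import Fermat.Agent.S48.H668.ThetaZF
import Fermat.Agent.S48.H668.Gen4

/-!
# S48 / INT / AUX — the auxiliary forms `G₁ = θ₃(2z)²`, `G₂ = θ₄(2z)²` (helper668)

Slash-invariance: `G₁` under `Γ₁(4)`, `G₂` under `Γ₁(8)`.
-/

set_option autoImplicit false

namespace Fermat.Agent.S48.H668

open Complex Real ModularForm Filter CongruenceSubgroup Matrix
open scoped MatrixGroups ModularForm Manifold Topology UpperHalfPlane

noncomputable section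

/-- `G₁(z) = θ₃(2z)² = (∑ q^{n²})²`. -/
def g1 : ℍ → ℂ := fun z => thA (2 * z) ^ 2

/-- `G₂(z) = θ₄(2z)² = (∑ (-1)ⁿ q^{n²})²`. -/
def g2 : ℍ → ℂ := fun z => thB (2 * z) ^ 2

lemma g1_apply (z : ℍ) : g1 z = thA (2 * z) ^ 2 := rfl
lemma g2_apply (z : ℍ) : g2 z = thB (2 * z) ^ 2 := rfl

lemma g1_ne_zero (z : ℍ) : g1 z ≠ 0 := by
  have h : 0 < (2 * (z : ℂ)).im := by simp [z.im_pos]
  exact pow_ne_zero _ (thA_ne_zero ⟨2 * z, h⟩)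

lemma g2_ne_zero (z : ℍ) : g2 z ≠ 0 := by
  have h : 0 < (2 * (z : ℂ)).im := by simp [z.im_pos]
  exact pow_ne_zero _ (thB_ne_zero ⟨2 * z, h⟩)

lemma mdifferentiable_g1 : MDiff g1 :=
  mdifferentiable_of_differentiableAt (f := fun τ => thA (2 * τ) ^ 2) fun τ h => by
    have h2 : 0 < (2 * τ).im := by simpa using h
    exact ((differentiableAt_thA h2).comp τ (by fun_prop)).pow 2

lemma mdifferentiable_g2 : MDiff g2 :=
  mdifferentiable_of_differentiableAt (f := fun τ => thB (2 * τ) ^ 2) fun τ h => by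
    have h2 : 0 < (2 * τ).im := by simpa using h
    exact ((differentiableAt_thB h2).comp τ (by fun_prop)).pow 2

/-! ### Möbius action of `SL₂(ℤ)`, explicit formulas -/

lemma coe_smul_int (γ : SL(2, ℤ)) (z : ℍ) :
    ((γ • z : ℍ) : ℂ) = ((γ 0 0 : ℂ) * z + (γ 0 1 : ℂ)) / ((γ 1 0 : ℂ) * z + (γ 1 1 : ℂ)) := by
  rw [UpperHalfPlane.coe_specialLinearGroup_apply]
  simp

lemma denom_int (γ : SL(2, ℤ)) (z : ℍ) :
    UpperHalfPlane.denom γ z = (γ 1 0 : ℂ) * z + (γ 1 1 : ℂ) := by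
  rw [ModularGroup.denom_apply]

lemma denom_int_ne_zero (γ : SL(2, ℤ)) (z : ℍ) : (γ 1 0 : ℂ) * z + (γ 1 1 : ℂ) ≠ 0 := by
  rw [← denom_int]; exact UpperHalfPlane.denom_ne_zero _ z

lemma slash_one_apply (f : ℍ → ℂ) (γ : SL(2, ℤ)) (z : ℍ) :
    (f ∣[(1 : ℤ)] γ) z = f (γ • z) / ((γ 1 0 : ℂ) * z + (γ 1 1 : ℂ)) := by
  rw [SL_slash_apply, denom_int, _root_.zpow_neg, zpow_one, div_eq_mul_inv]

/-! ### `G₁` on `Γ₁(4)` -/

lemma g1_slash_T : g1 ∣[(1 : ℤ)] ModularGroup.T = g1 := by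
  ext z
  rw [slash_T_apply', g1_apply, g1_apply, coe_one_vadd,
    show 2 * ((z : ℂ) + 1) = 2 * z + 2 by ring, thA_add_two]

lemma thA_sub_two (τ : ℂ) : thA (τ - 2) = thA τ := by
  have := thA_add_two (τ - 2)
  rw [sub_add_cancel] at this
  exact this.symm

lemma thA_W {τ : ℂ} (hτ : 0 < τ.im) : thA (τ / (2 * τ + 1)) ^ 2 = (2 * τ + 1) * thA τ ^ 2 := by
  have h0 : τ ≠ 0 := fun h => by rw [h] at hτ; simp at hτ
  have h1 : 2 * τ + 1 ≠ 0 := fun h => by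
    have := congrArg Complex.im h
    simp at this
    linarith
  have hu : τ / (2 * τ + 1) ≠ 0 := div_ne_zero h0 h1
  have e1 := thA_inv_sq hu
  have e2 := thA_inv_sq h0
  have e3 : -1 / (τ / (2 * τ + 1)) = -1 / τ - 2 := by field_simp; ring
  rw [e3, thA_sub_two, e2] at e1
  have hI : (-Complex.I) ≠ 0 := by simp
  have : τ * thA τ ^ 2 = τ / (2 * τ + 1) * thA (τ / (2 * τ + 1)) ^ 2 := by
    have := mul_left_cancel₀ hI (by simpa [mul_assoc] using e1 :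
      -Complex.I * (τ * thA τ ^ 2) = -Complex.I * (τ / (2 * τ + 1) * thA (τ / (2 * τ + 1)) ^ 2))
    exact this
  generalize thA (τ / (2 * τ + 1)) ^ 2 = X at this ⊢
  generalize thA τ ^ 2 = Y at this ⊢
  have h1' : τ * 2 + 1 ≠ 0 := by rwa [mul_comm τ 2]
  apply mul_left_cancel₀ h0
  calc τ * X = (2 * τ + 1) * (τ / (2 * τ + 1) * X) := by field_simp
    _ = (2 * τ + 1) * (τ * Y) := by rw [this]
    _ = τ * ((2 * τ + 1) * Y) := by ring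

lemma g1_slash_W : g1 ∣[(1 : ℤ)] lowU 4 = g1 := by
  ext z
  rw [slash_one_apply, g1_apply, g1_apply, coe_smul_int]
  have hz : 0 < (2 * (z : ℂ)).im := by simp [z.im_pos]
  have hd := denom_int_ne_zero (lowU 4) z
  simp only [lowU_coe, Matrix.of_apply, Matrix.cons_val', Matrix.cons_val_zero,
    Matrix.cons_val_one, Matrix.cons_val_fin_one, Int.cast_one, Int.cast_zero,
    Int.cast_ofNat, one_mul, add_zero] at hd ⊢
  have key := thA_W hz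
  have e : 2 * ((z : ℂ) / (4 * z + 1)) = 2 * z / (2 * (2 * z) + 1) := by
    rw [show (2 : ℂ) * (2 * z) + 1 = 4 * z + 1 by ring]; ring
  rw [e, key, show (2 : ℂ) * (2 * z) + 1 = 4 * z + 1 by ring]
  generalize thA (2 * (z : ℂ)) ^ 2 = Y
  field_simp

/-- `G₁` is slash-invariant under `Γ₁(4)`. -/
theorem g1_slash (γ : SL(2, ℤ)) (hγ : γ ∈ Gamma1 4) : g1 ∣[(1 : ℤ)] γ = g1 :=
  slash_eq_of_mem_Gamma1_four g1_slash_T g1_slash_W γ hγ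

/-! ### `G₂` on `Γ₁(8)` -/

lemma exists_of_mem_Gamma1_eight {γ : SL(2, ℤ)} (hγ : γ ∈ Gamma1 8) :
    ∃ a₀ c₀ d₀ : ℤ, γ 0 0 = 1 + 8 * a₀ ∧ γ 1 0 = 8 * c₀ ∧ γ 1 1 = 1 + 8 * d₀ := by
  rw [Gamma1_mem] at hγ
  obtain ⟨ha, hd, hc⟩ := hγ
  have ha' : ((γ 0 0 : ℤ) : ZMod 8) = ((1 : ℤ) : ZMod 8) := by simpa using ha
  have hd' : ((γ 1 1 : ℤ) : ZMod 8) = ((1 : ℤ) : ZMod 8) := by simpa using hd
  have hc' : ((γ 1 0 : ℤ) : ZMod 8) = ((0 : ℤ) : ZMod 8) := by simpa using hc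
  rw [ZMod.intCast_eq_intCast_iff_dvd_sub] at ha' hd' hc'
  obtain ⟨a₀, ha₀⟩ := ha'
  obtain ⟨d₀, hd₀⟩ := hd'
  obtain ⟨c₀, hc₀⟩ := hc'
  refine ⟨-a₀, -c₀, -d₀, ?_, ?_, ?_⟩
  · push_cast at ha₀; linarith
  · push_cast at hc₀; linarith
  · push_cast at hd₀; linarith

/-- The conjugate of `γ ∈ Γ₁(8)` by the translation `z ↦ z + 1/2`. -/
def conjHalf (γ : SL(2, ℤ)) (a₀ c₀ d₀ : ℤ) (ha : γ 0 0 = 1 + 8 * a₀) (hc : γ 1 0 = 8 * c₀)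
    (hd : γ 1 1 = 1 + 8 * d₀) : SL(2, ℤ) :=
  ⟨!![γ 0 0 + 4 * c₀, γ 0 1 + 4 * (d₀ - a₀) - 2 * c₀; γ 1 0, γ 1 1 - 4 * c₀], by
    have hdet := γ.det_coe
    rw [Matrix.det_fin_two] at hdet ⊢
    simp only [Matrix.of_apply, Matrix.cons_val', Matrix.cons_val_zero, Matrix.cons_val_one,
      Matrix.cons_val_fin_one]
    linear_combination hdet + 4 * c₀ * (hd - ha) + (4 * a₀ - 4 * d₀ + 2 * c₀) * hc⟩

lemma conjHalf_mem (γ : SL(2, ℤ)) (a₀ c₀ d₀ : ℤ) (ha : γ 0 0 = 1 + 8 * a₀) (hc : γ 1 0 = 8 * c₀)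
    (hd : γ 1 1 = 1 + 8 * d₀) : conjHalf γ a₀ c₀ d₀ ha hc hd ∈ Gamma1 4 := by
  rw [Gamma1_mem]
  have h4 : (4 : ZMod 4) = 0 := by decide
  have h8 : (8 : ZMod 4) = 0 := by decide
  refine ⟨?_, ?_, ?_⟩
  · show (((γ 0 0 + 4 * c₀ : ℤ)) : ZMod 4) = 1
    rw [ha]; push_cast; rw [h4, h8]; ring
  · show (((γ 1 1 - 4 * c₀ : ℤ)) : ZMod 4) = 1
    rw [hd]; push_cast; rw [h4, h8]; ring
  · show (((γ 1 0 : ℤ)) : ZMod 4) = 0
    rw [hc]; push_cast; rw [h8]; ring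

/-- The point `z + 1/2`. -/
def shiftHalf (z : ℍ) : ℍ := ((1 / 2 : ℝ) +ᵥ z)

lemma coe_shiftHalf (z : ℍ) : ((shiftHalf z : ℍ) : ℂ) = z + 1 / 2 := by
  simp [shiftHalf, add_comm]

lemma g2_eq_g1_shift (z : ℍ) : g2 z = g1 (shiftHalf z) := by
  rw [g1_apply, g2_apply, coe_shiftHalf, thB_eq_thA]
  congr 2; ring

/-- `G₂` is slash-invariant under `Γ₁(8)`. -/
theorem g2_slash (γ : SL(2, ℤ)) (hγ : γ ∈ Gamma1 8) : g2 ∣[(1 : ℤ)] γ = g2 := by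
  obtain ⟨a₀, c₀, d₀, ha, hc, hd⟩ := exists_of_mem_Gamma1_eight hγ
  set γ' := conjHalf γ a₀ c₀ d₀ ha hc hd with hγ'
  have hmem : γ' ∈ Gamma1 4 := conjHalf_mem γ a₀ c₀ d₀ ha hc hd
  ext z
  have hinv := congrFun (g1_slash γ' hmem) (shiftHalf z)
  rw [slash_one_apply] at hinv ⊢
  have hden : ((γ' 1 0 : ℂ)) * (shiftHalf z : ℂ) + (γ' 1 1 : ℂ) = (γ 1 0 : ℂ) * z + (γ 1 1 : ℂ) := by
    rw [coe_shiftHalf]
    show ((γ 1 0 : ℤ) : ℂ) * ((z : ℂ) + 1 / 2) + ((γ 1 1 - 4 * c₀ : ℤ) : ℂ) = _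
    rw [hc]; push_cast; ring
  have hpt : shiftHalf (γ • z) = γ' • shiftHalf z := by
    apply UpperHalfPlane.ext
    rw [coe_shiftHalf, coe_smul_int, coe_smul_int, hden]
    have hd0 := denom_int_ne_zero γ z
    rw [coe_shiftHalf]
    show _ = (((γ 0 0 + 4 * c₀ : ℤ) : ℂ) * ((z : ℂ) + 1 / 2) +
      ((γ 0 1 + 4 * (d₀ - a₀) - 2 * c₀ : ℤ) : ℂ)) / _
    rw [div_add' _ _ _ hd0, div_left_inj' hd0]
    have e1 : ((γ 0 0 : ℤ) : ℂ) = 1 + 8 * a₀ := by exact_mod_cast ha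
    have e2 : ((γ 1 0 : ℤ) : ℂ) = 8 * c₀ := by exact_mod_cast hc
    have e3 : ((γ 1 1 : ℤ) : ℂ) = 1 + 8 * d₀ := by exact_mod_cast hd
    push_cast
    rw [e1, e2, e3]
    ring
  rw [g2_eq_g1_shift, hpt, ← hden, hinv, g2_eq_g1_shift]

end

end Fermat.Agent.S48.H668
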