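import Fermat.Agent.S48.H668.AuxDefs
import Fermat.Agent.S16.H668.ThetaQ
import Fermat.Agent.S48.INT.Spec

/-!
# S48 / INT / AUX — `q`-expansions of `G₁`, `G₂` (helper668)

`G₁ = ∑ r₂(n) qⁿ`, `G₂ = ∑ (-1)ⁿ r₂(n) qⁿ`, `r₂(n) = #{(a, b) ∈ ℤ² : a² + b² = n}`.
-/

set_option autoImplicit false

namespace Fermat.Agent.S48.H668

open Complex Real ModularForm Filter
open scoped MatrixGroups ModularForm Manifold Topology UpperHalfPlane
open Fermat.Agent.S16.H668

local notation "𝕢" => Function.Periodic.qParam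

noncomputable section

/-- `n ↦ n²` on `ℤ`. -/
def msq1 : ℤ → ℕ := fun n => n.natAbs ^ 2

/-- `(a, b) ↦ a² + b²` on `ℤ²`. -/
def msq : ℤ × ℤ → ℕ := fun x => x.1.natAbs ^ 2 + x.2.natAbs ^ 2

lemma cast_msq1 (n : ℤ) : ((msq1 n : ℕ) : ℝ) = (n : ℝ) ^ 2 := by
  unfold msq1
  push_cast
  rw [Nat.cast_natAbs, Int.cast_abs, sq_abs]

lemma thetaSummable_msq1 : ThetaSummable msq1 := fun t ht => by
  refine (summable_gaussian_int ht).congr fun n => ?_
  rw [cast_msq1]

lemma thetaSummable_msq : ThetaSummable msq := fun t ht => by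
  have h := summable_gaussian_int ht
  have := h.mul_of_nonneg h (fun _ => (Real.exp_pos _).le) (fun _ => (Real.exp_pos _).le)
  refine this.congr fun x => ?_
  rw [← Real.exp_add]
  congr 1
  have : ((msq x : ℕ) : ℝ) = (x.1 : ℝ) ^ 2 + (x.2 : ℝ) ^ 2 := by
    unfold msq
    push_cast
    rw [Nat.cast_natAbs, Nat.cast_natAbs, Int.cast_abs, Int.cast_abs, sq_abs, sq_abs]
  rw [this]; ring

lemma qParam_pow_msq1 (z : ℍ) (n : ℤ) : 𝕢 1 z ^ msq1 n = jacobiTheta₂_term n 0 (2 * z) := by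
  unfold Function.Periodic.qParam jacobiTheta₂_term
  rw [← Complex.exp_nat_mul]
  congr 1
  have : ((msq1 n : ℕ) : ℂ) = (n : ℂ) ^ 2 := by
    have := cast_msq1 n
    exact_mod_cast this
  rw [this]
  simp only [ofReal_one, div_one]
  ring

lemma thA_two_mul (z : ℍ) : thA (2 * z) = thetaFun 1 msq1 z := by
  rw [thetaFun_apply]
  unfold thA jacobiTheta₂
  exact tsum_congr fun n => (qParam_pow_msq1 z n).symm

lemma g1_eq_thetaFun : g1 = thetaFun 1 msq := by
  funext z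
  rw [g1_apply, thA_two_mul, thetaFun_apply, thetaFun_apply, sq]
  have hs := thetaSummable_msq1.summable_norm_qParam_pow one_pos z
  rw [tsum_mul_tsum_of_summable_norm hs hs]
  refine tsum_congr fun x => ?_
  rw [← pow_add]; rfl

/-- The representation numbers `r₂(n)`. -/
def r2 (n : ℕ) : ℕ := Nat.card {x : ℤ × ℤ // msq x = n}

lemma hasSum_g1 (z : ℍ) : HasSum (fun k : ℕ => (r2 k : ℂ) • 𝕢 1 z ^ k) (g1 z) := by
  rw [g1_eq_thetaFun]
  exact thetaSummable_msq.hasSum_thetaFun one_pos z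

lemma r2_zero : r2 0 = 1 := by
  refine card_fiber_zero msq fun x => ?_
  unfold msq
  constructor
  · intro h
    have h1 : x.1.natAbs ^ 2 = 0 := by omega
    have h2 : x.2.natAbs ^ 2 = 0 := by omega
    have h1' : x.1 = 0 := by simpa using h1
    have h2' : x.2 = 0 := by simpa using h2
    exact Prod.ext h1' h2'
  · rintro rfl; simp

theorem qCoeff_g1 (n : ℕ) : ModularFormClass.qCoeff g1 n = (r2 n : ℂ) := by
  unfold ModularFormClass.qCoeff
  exact qExpansion_coeff_eq_of_hasSum one_pos hasSum_g1 n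

lemma qParam_shiftHalf (z : ℍ) : 𝕢 1 (shiftHalf z) = -𝕢 1 z := by
  rw [coe_shiftHalf]
  unfold Function.Periodic.qParam
  simp only [ofReal_one, div_one]
  rw [show 2 * (π : ℂ) * Complex.I * ((z : ℂ) + 1 / 2) = 2 * π * Complex.I * z + π * Complex.I by
    ring, Complex.exp_add, Complex.exp_pi_mul_I]
  ring

lemma hasSum_g2 (z : ℍ) :
    HasSum (fun k : ℕ => (((-1 : ℤ) ^ k * (r2 k : ℤ) : ℤ) : ℂ) • 𝕢 1 z ^ k) (g2 z) := by
  rw [g2_eq_g1_shift]
  have h := hasSum_g1 (shiftHalf z)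
  rw [qParam_shiftHalf] at h
  refine h.congr_fun fun k => ?_   
  simp only [smul_eq_mul]
  push_cast
  rw [neg_pow]
  ring

theorem qCoeff_g2 (n : ℕ) :
    ModularFormClass.qCoeff g2 n = (((-1 : ℤ) ^ n * (r2 n : ℤ) : ℤ) : ℂ) := by
  unfold ModularFormClass.qCoeff
  exact qExpansion_coeff_eq_of_hasSum one_pos hasSum_g2 n

end

end Fermat.Agent.S48.H668
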