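import Fermat.Agent.S48.H668.AuxCusp
import Fermat.Agent.S48.H668.AuxQ

/-!
# S48 / INT / AUX — the auxiliary forms as modular forms on `Γ₁(8)` (helper668)

`aux : INT.AuxStatement`.
-/

set_option autoImplicit false

namespace Fermat.Agent.S48.H668

open Complex Real ModularForm Filter CongruenceSubgroup Matrix
open scoped MatrixGroups ModularForm Manifold Topology UpperHalfPlane

noncomputable section

lemma Gamma1_eight_le_four : Gamma1 8 ≤ Gamma1 4 := by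
  intro γ hγ
  obtain ⟨a₀, c₀, d₀, ha, hc, hd⟩ := exists_of_mem_Gamma1_eight hγ
  rw [Gamma1_mem]
  have h8 : (8 : ZMod 4) = 0 := by decide
  refine ⟨?_, ?_, ?_⟩
  · show (((γ 0 0 : ℤ)) : ZMod 4) = 1
    rw [ha]; push_cast; rw [h8]; ring
  · show (((γ 1 1 : ℤ)) : ZMod 4) = 1
    rw [hd]; push_cast; rw [h8]; ring
  · show (((γ 1 0 : ℤ)) : ZMod 4) = 0
    rw [hc]; push_cast; rw [h8]; ring

/-- `G₁ = θ₃(2z)²` as a modular form of weight one on `Γ₁(8)`. -/
def G1 : ModularForm (Gamma1 8) 1 where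
  toFun := g1
  slash_action_eq' A hA := by
    obtain ⟨γ, hγ, rfl⟩ := hA
    exact g1_slash γ (Gamma1_eight_le_four hγ)
  holo' := mdifferentiable_g1
  bdd_at_cusps' hc := by
    rw [Subgroup.IsArithmetic.isCusp_iff_isCusp_SL2Z] at hc
    rw [OnePoint.isBoundedAt_iff_forall_SL2Z hc]
    intro γ _
    exact (isBoundedAtImInfty_slash γ).1

/-- `G₂ = θ₄(2z)²` as a modular form of weight one on `Γ₁(8)`. -/
def G2 : ModularForm (Gamma1 8) 1 where
  toFun := g2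
  slash_action_eq' A hA := by
    obtain ⟨γ, hγ, rfl⟩ := hA
    exact g2_slash γ hγ
  holo' := mdifferentiable_g2
  bdd_at_cusps' hc := by
    rw [Subgroup.IsArithmetic.isCusp_iff_isCusp_SL2Z] at hc
    rw [OnePoint.isBoundedAt_iff_forall_SL2Z hc]
    intro γ _
    exact (isBoundedAtImInfty_slash γ).2

@[simp] lemma coe_G1 : (G1 : ℍ → ℂ) = g1 := rfl
@[simp] lemma coe_G2 : (G2 : ℍ → ℂ) = g2 := rfl

/-- **AUX**. -/
theorem aux : Fermat.Agent.S48.INT.AuxStatement := by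
  refine ⟨G1, G2, g1_ne_zero, g2_ne_zero, fun n => ⟨(r2 n : ℤ), ?_⟩, ?_,
    fun n => ⟨(-1 : ℤ) ^ n * (r2 n : ℤ), ?_⟩, ?_, fun γ => ?_⟩
  · rw [coe_G1, qCoeff_g1]; simp
  · rw [coe_G1, qCoeff_g1, r2_zero]; simp
  · rw [coe_G2, qCoeff_g2]
  · rw [coe_G2, qCoeff_g2, r2_zero]; simp
  · exact exists_lower_bound γ

end

end Fermat.Agent.S48.H668
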