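import Fermat.Agent.S48.H668.AuxMain
import Fermat.Agent.S48.H428.IntAsm
import Fermat.Agent.S48.H428.DivFun
import Fermat.Agent.S48.H428.Restrict
import Fermat.Agent.S48.H428.ValuesPrime
import Fermat.Agent.S48.H151.Div
import Fermat.Agent.S48.H968.Lat
import Fermat.Agent.S48.H968.Conj
import Fermat.Agent.S48.H436.Ord
import Fermat.Agent.S48.H308.RankinTop
import Fermat.Agent.S48.Top.Chain

/-!
# S48 piece INT — closed modulo the single input W2 (helper668, architect of INT)

All pieces of `coord/S48-INT.md` are on main (AUX H668, DIVF/RES/ASM/VAL' H428, DIV H151,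
LAT/CONJ H968, ORD H436).  The only remaining input of INT is
`INT.IntStrTwoStatement` (integral structure of `S₂(Γ₁(M))`, `8 ∣ M`).
-/

set_option autoImplicit false

namespace Fermat.Agent.S48.H668

open Fermat.Agent.S48

/-- INT, relaxed form, from W2. -/
theorem eigenConj'_of_intStrTwo (hW2 : INT.IntStrTwoStatement) : INT.EigenConjStatement' :=
  H428.intAssembly hW2 aux H428.divFun H151.div H428.restrict H968.lattice H436.ord H968.conj

/-- The only consequence of INT used by the S48 chain, from W2. -/
theorem values_of_intStrTwo (hW2 : INT.IntStrTwoStatement) : Top.ValuesStatement :=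
  H428.values' H308.rankin (eigenConj'_of_intStrTwo hW2)

/-- S48 from the two remaining inputs: W2 (integral structure of `S₂(Γ₁(M))`) and RES
(TOWER A1). -/
theorem s48_of_intStrTwo_res (hW2 : INT.IntStrTwoStatement) (hRes : Top.ResidualStatement) :
    Top.S48Statement :=
  Top.s48_of_val_res (values_of_intStrTwo hW2) hRes

end Fermat.Agent.S48.H668
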