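import Mathlib

/-!
# S48 / INT / AUX — theta constants (helper668)

`thA = θ₃`, `thB = θ₄`, `thC = θ₂` as functions of `τ ∈ ℂ` (`Im τ > 0`), with their
transformation laws under `τ ↦ τ + 1` and `τ ↦ -1/τ`.
-/

set_option autoImplicit false

namespace Fermat.Agent.S48.H668

open Complex Real

noncomputable section

/-- `θ₃(τ) = ∑ exp(π i n² τ)`. -/
def thA (τ : ℂ) : ℂ := jacobiTheta₂ 0 τ

/-- `θ₄(τ) = ∑ (-1)ⁿ exp(π i n² τ)`. -/
def thB (τ : ℂ) : ℂ := jacobiTheta₂ (1 / 2) τ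

/-- `θ₂(τ) = ∑ exp(π i (n + 1/2)² τ)`. -/
def thC (τ : ℂ) : ℂ := cexp (π * I * τ / 4) * jacobiTheta₂ (τ / 2) τ

lemma int_sq_eq_add_two_mul (n : ℤ) : ∃ k : ℤ, n ^ 2 = n + 2 * k := by
  obtain ⟨k, hk⟩ := Int.even_mul_pred_self n
  exact ⟨k, by linear_combination hk⟩

lemma cexp_pi_int_sq (n : ℤ) : cexp (π * I * (n : ℂ) ^ 2) = cexp (π * I * n) := by
  obtain ⟨k, hk⟩ := int_sq_eq_add_two_mul n
  rw [Complex.exp_eq_exp_iff_exists_int]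
  refine ⟨k, ?_⟩
  have : ((n : ℂ)) ^ 2 = n + 2 * k := by exact_mod_cast hk
  rw [this]; ring

lemma cexp_pi_int_sq_add (n : ℤ) : cexp (π * I * ((n : ℂ) ^ 2 + n)) = 1 := by
  obtain ⟨k, hk⟩ := int_sq_eq_add_two_mul n
  have : ((n : ℂ)) ^ 2 = n + 2 * k := by exact_mod_cast hk
  rw [this, show (π : ℂ) * I * (n + 2 * k + n) = ((n + k : ℤ) : ℂ) * (2 * π * I) by push_cast; ring]
  exact Complex.exp_int_mul_two_pi_mul_I _

/-! ### The translation `τ ↦ τ + 1` -/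

lemma thA_add_one (τ : ℂ) : thA (τ + 1) = thB τ := by
  unfold thA thB jacobiTheta₂
  refine tsum_congr fun n => ?_
  simp only [jacobiTheta₂_term]
  rw [show 2 * (π : ℂ) * I * n * 0 + π * I * (n : ℂ) ^ 2 * (τ + 1) =
      π * I * (n : ℂ) ^ 2 + π * I * (n : ℂ) ^ 2 * τ by ring,
    show 2 * (π : ℂ) * I * n * (1 / 2) + π * I * (n : ℂ) ^ 2 * τ =
      π * I * n + π * I * (n : ℂ) ^ 2 * τ by ring,
    Complex.exp_add, Complex.exp_add, cexp_pi_int_sq]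

lemma thB_add_one (τ : ℂ) : thB (τ + 1) = thA τ := by
  unfold thA thB jacobiTheta₂
  refine tsum_congr fun n => ?_
  simp only [jacobiTheta₂_term]
  rw [show 2 * (π : ℂ) * I * n * (1 / 2) + π * I * (n : ℂ) ^ 2 * (τ + 1) =
      π * I * ((n : ℂ) ^ 2 + n) + π * I * (n : ℂ) ^ 2 * τ by ring,
    show 2 * (π : ℂ) * I * n * 0 + π * I * (n : ℂ) ^ 2 * τ = π * I * (n : ℂ) ^ 2 * τ by ring,
    Complex.exp_add, cexp_pi_int_sq_add, one_mul]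

lemma thC_add_one (τ : ℂ) : thC (τ + 1) = cexp (π * I / 4) * thC τ := by
  unfold thC jacobiTheta₂
  rw [show (π : ℂ) * I * (τ + 1) / 4 = π * I / 4 + π * I * τ / 4 by ring, Complex.exp_add,
    mul_assoc]
  congr 2
  refine tsum_congr fun n => ?_
  simp only [jacobiTheta₂_term]
  rw [show 2 * (π : ℂ) * I * n * ((τ + 1) / 2) + π * I * (n : ℂ) ^ 2 * (τ + 1) =
      π * I * ((n : ℂ) ^ 2 + n) + (2 * π * I * n * (τ / 2) + π * I * (n : ℂ) ^ 2 * τ) by ring,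
    Complex.exp_add, cexp_pi_int_sq_add, one_mul]

lemma thC_add_one_pow (τ : ℂ) : thC (τ + 1) ^ 8 = thC τ ^ 8 := by
  rw [thC_add_one, mul_pow, ← Complex.exp_nat_mul]
  rw [show ((8 : ℕ) : ℂ) * (π * I / 4) = 2 * π * I by push_cast; ring, Complex.exp_two_pi_mul_I,
    one_mul]

lemma thA_add_two (τ : ℂ) : thA (τ + 2) = thA τ := jacobiTheta₂_add_right 0 τ

lemma thB_add_two (τ : ℂ) : thB (τ + 2) = thB τ := jacobiTheta₂_add_right _ τ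

/-! ### The inversion `τ ↦ -1/τ` -/

lemma sqrt_factor_sq (τ : ℂ) : ((-I * τ) ^ (1 / 2 : ℂ)) ^ 2 = -I * τ := by
  have := Complex.cpow_nat_inv_pow (-I * τ) (n := 2) (by norm_num)
  simp at this
  simpa using this

lemma sqrt_factor_ne_zero {τ : ℂ} (hτ : τ ≠ 0) : (-I * τ) ^ (1 / 2 : ℂ) ≠ 0 := by
  intro h
  have := sqrt_factor_sq τ
  rw [h] at this
  simp at this
  exact hτ this

lemma thA_eq_inv (τ : ℂ) : thA τ = 1 / (-I * τ) ^ (1 / 2 : ℂ) * thA (-1 / τ) := by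
  unfold thA
  have := jacobiTheta₂_functional_equation 0 τ
  simpa using this

lemma thB_eq_inv {τ : ℂ} (hτ : τ ≠ 0) : thB τ = 1 / (-I * τ) ^ (1 / 2 : ℂ) * thC (-1 / τ) := by
  unfold thB thC
  rw [jacobiTheta₂_functional_equation (1 / 2) τ, mul_assoc]
  congr 1
  have h1 : -(π : ℂ) * I * (1 / 2) ^ 2 / τ = π * I * (-1 / τ) / 4 := by field_simp; ring
  have h2 : (1 / 2 : ℂ) / τ = -(-1 / τ / 2) := by field_simp
  rw [h1, h2, jacobiTheta₂_neg_left]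

lemma thC_eq_inv {τ : ℂ} (hτ : τ ≠ 0) : thC τ = 1 / (-I * τ) ^ (1 / 2 : ℂ) * thB (-1 / τ) := by
  unfold thB thC
  rw [jacobiTheta₂_functional_equation (τ / 2) τ]
  have h1 : -(π : ℂ) * I * (τ / 2) ^ 2 / τ = -(π * I * τ / 4) := by field_simp; ring
  have h2 : τ / 2 / τ = 1 / 2 := by field_simp
  rw [h1, h2, Complex.exp_neg]
  have := Complex.exp_ne_zero (π * I * τ / 4)
  field_simp

lemma thA_inv_sq {τ : ℂ} (hτ : τ ≠ 0) : thA (-1 / τ) ^ 2 = -I * τ * thA τ ^ 2 := by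
  have h := sqrt_factor_ne_zero hτ
  rw [thA_eq_inv τ, mul_pow, div_pow, one_pow, sqrt_factor_sq]
  have : -I * τ ≠ 0 := by simp [hτ]
  field_simp

lemma thC_inv_sq {τ : ℂ} (hτ : τ ≠ 0) : thC (-1 / τ) ^ 2 = -I * τ * thB τ ^ 2 := by
  have h := sqrt_factor_ne_zero hτ
  rw [thB_eq_inv hτ, mul_pow, div_pow, one_pow, sqrt_factor_sq]
  have : -I * τ ≠ 0 := by simp [hτ]
  field_simp

lemma thB_inv_sq {τ : ℂ} (hτ : τ ≠ 0) : thB (-1 / τ) ^ 2 = -I * τ * thC τ ^ 2 := by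
  have h := sqrt_factor_ne_zero hτ
  rw [thC_eq_inv hτ, mul_pow, div_pow, one_pow, sqrt_factor_sq]
  have : -I * τ ≠ 0 := by simp [hτ]
  field_simp

lemma neg_I_mul_pow_four (τ : ℂ) : (-I * τ) ^ 4 = τ ^ 4 := by
  rw [mul_pow]
  have : (-I) ^ 4 = 1 := by
    rw [neg_pow, show (4 : ℕ) = 2 * 2 by norm_num, pow_mul, pow_mul, I_sq]; norm_num
  rw [this, one_mul]

lemma thA_inv_pow {τ : ℂ} (hτ : τ ≠ 0) : thA (-1 / τ) ^ 8 = τ ^ 4 * thA τ ^ 8 := by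
  rw [show (8 : ℕ) = 2 * 4 by norm_num, pow_mul, pow_mul, thA_inv_sq hτ, mul_pow, neg_I_mul_pow_four]

lemma thB_inv_pow {τ : ℂ} (hτ : τ ≠ 0) : thB (-1 / τ) ^ 8 = τ ^ 4 * thC τ ^ 8 := by
  rw [show (8 : ℕ) = 2 * 4 by norm_num, pow_mul, pow_mul, thB_inv_sq hτ, mul_pow, neg_I_mul_pow_four]

lemma thC_inv_pow {τ : ℂ} (hτ : τ ≠ 0) : thC (-1 / τ) ^ 8 = τ ^ 4 * thB τ ^ 8 := by
  rw [show (8 : ℕ) = 2 * 4 by norm_num, pow_mul, pow_mul, thC_inv_sq hτ, mul_pow, neg_I_mul_pow_four]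

end

end Fermat.Agent.S48.H668
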