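import Fermat.Agent.S48.H668.ThetaConsts

/-!
# S48 / INT / AUX — the eighth powers of the theta constants under `SL₂(ℤ)` (helper668)
-/

set_option autoImplicit false

namespace Fermat.Agent.S48.H668

open Complex Real UpperHalfPlane ModularForm
open scoped MatrixGroups ModularForm Manifold

noncomputable section

/-- `θ₃⁸`, `θ₄⁸`, `θ₂⁸` on the upper half plane, indexed by `Fin 3`. -/
def th8 : Fin 3 → ℍ → ℂ
  | 0 => fun z => thA z ^ 8
  | 1 => fun z => thB z ^ 8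
  | 2 => fun z => thC z ^ 8

@[simp] lemma th8_zero (z : ℍ) : th8 0 z = thA z ^ 8 := rfl
@[simp] lemma th8_one (z : ℍ) : th8 1 z = thB z ^ 8 := rfl
@[simp] lemma th8_two (z : ℍ) : th8 2 z = thC z ^ 8 := rfl

set_option backward.isDefEq.respectTransparency.types false in
lemma slash_T_apply' (f : ℍ → ℂ) (k : ℤ) (z : ℍ) :
    (f ∣[k] ModularGroup.T) z = f ((1 : ℝ) +ᵥ z) := by
  rw [SL_slash_apply, denom, modular_T_smul, ModularGroup.T]
  simp

lemma coe_one_vadd (z : ℍ) : (((1 : ℝ) +ᵥ z : ℍ) : ℂ) = (z : ℂ) + 1 := by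
  simp [add_comm]

lemma th8_slash_T_zero : th8 0 ∣[(4 : ℤ)] ModularGroup.T = th8 1 := by
  ext z; rw [slash_T_apply']; simp only [th8_zero, th8_one, coe_one_vadd, thA_add_one]

lemma th8_slash_T_one : th8 1 ∣[(4 : ℤ)] ModularGroup.T = th8 0 := by
  ext z; rw [slash_T_apply']; simp only [th8_zero, th8_one, coe_one_vadd, thB_add_one]

lemma th8_slash_T_two : th8 2 ∣[(4 : ℤ)] ModularGroup.T = th8 2 := by
  ext z; rw [slash_T_apply']; simp only [th8_two, coe_one_vadd, thC_add_one_pow]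

lemma coe_S_point (z : ℍ) :
    ((UpperHalfPlane.mk _ z.im_inv_neg_coe_pos : ℍ) : ℂ) = -1 / (z : ℂ) := by
  show (-(z : ℂ))⁻¹ = -1 / (z : ℂ)
  rw [neg_div, one_div, inv_neg]

lemma slash_S_aux (f g : ℂ → ℂ) (h : ∀ τ : ℂ, τ ≠ 0 → f (-1 / τ) ^ 8 = τ ^ 4 * g τ ^ 8) :
    (fun z : ℍ => f z ^ 8) ∣[(4 : ℤ)] ModularGroup.S = fun z : ℍ => g z ^ 8 := by
  ext z
  rw [SlashInvariantForm.slash_S_apply]
  have hz := ne_zero z
  show f ((UpperHalfPlane.mk _ z.im_inv_neg_coe_pos : ℍ) : ℂ) ^ 8 * _ = _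
  rw [coe_S_point, h _ hz, zpow_neg, show ((z : ℂ) ^ (4 : ℤ)) = (z : ℂ) ^ 4 by norm_cast]
  field_simp

lemma th8_slash_S_zero : th8 0 ∣[(4 : ℤ)] ModularGroup.S = th8 0 :=
  slash_S_aux thA thA fun _ h => thA_inv_pow h

lemma th8_slash_S_one : th8 1 ∣[(4 : ℤ)] ModularGroup.S = th8 2 :=
  slash_S_aux thB thC fun _ h => thB_inv_pow h

lemma th8_slash_S_two : th8 2 ∣[(4 : ℤ)] ModularGroup.S = th8 1 :=
  slash_S_aux thC thB fun _ h => thC_inv_pow h

/-- **PERM**: the weight-4 slash action of `SL₂(ℤ)` permutes `θ₃⁸, θ₄⁸, θ₂⁸`. -/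
theorem th8_slash_perm (γ : SL(2, ℤ)) :
    ∃ σ : Equiv.Perm (Fin 3), ∀ i, th8 i ∣[(4 : ℤ)] γ = th8 (σ i) := by
  have hγ : γ ∈ Subgroup.closure ({ModularGroup.S, ModularGroup.T} : Set SL(2, ℤ)) := by
    simp [SpecialLinearGroup.SL2Z_generators]
  induction hγ using Subgroup.closure_induction with
  | mem x hx =>
    rcases hx with rfl | rfl
    · refine ⟨Equiv.swap 1 2, fun i => ?_⟩
      fin_cases i
      · exact th8_slash_S_zero
      · exact th8_slash_S_one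
      · exact th8_slash_S_two
    · refine ⟨Equiv.swap 0 1, fun i => ?_⟩
      fin_cases i
      · exact th8_slash_T_zero
      · exact th8_slash_T_one
      · exact th8_slash_T_two
  | one => exact ⟨1, fun i => by simp⟩
  | mul x y _ _ hx hy =>
    obtain ⟨σ, hσ⟩ := hx
    obtain ⟨ρ, hρ⟩ := hy
    refine ⟨σ.trans ρ, fun i => ?_⟩
    rw [SlashAction.slash_mul, hσ, hρ]; rfl
  | inv x _ hx =>
    obtain ⟨σ, hσ⟩ := hx
    refine ⟨σ.symm, fun i => ?_⟩
    have := hσ (σ.symm i)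
    rw [Equiv.apply_symm_apply] at this
    rw [← this, ← SlashAction.slash_mul]
    simp

end

end Fermat.Agent.S48.H668
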