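import Fermat.Agent.S48.H668.ThetaSlash

/-!
# S48 / INT / AUX — bounds, holomorphy and zero-freeness of the theta constants (helper668)

`(θ₂ θ₃ θ₄)⁸` is a cusp form of weight 12 and level 1, hence `c · Δ` with `c ≠ 0`; so the theta
constants have no zeros on the upper half plane.
-/

set_option autoImplicit false

namespace Fermat.Agent.S48.H668

open Complex Real UpperHalfPlane ModularForm Filter
open scoped MatrixGroups ModularForm Manifold Topology

noncomputable section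

/-! ### Bounds near `i∞` -/

lemma thA_eq_jacobiTheta (τ : ℂ) : thA τ = jacobiTheta τ := (jacobiTheta_eq_jacobiTheta₂ τ).symm

lemma norm_thA_sub_one_le {τ : ℂ} (hτ : 1 ≤ τ.im) : ‖thA τ - 1‖ ≤ 2 / 3 := by
  rw [thA_eq_jacobiTheta]
  have h0 : 0 < τ.im := by linarith
  refine (norm_jacobiTheta_sub_one_le h0).trans ?_
  have hpi : (3 : ℝ) ≤ π * τ.im := by nlinarith [Real.pi_gt_three]
  have hx0 : 0 < rexp (-π * τ.im) := Real.exp_pos _
  have hx : rexp (-π * τ.im) ≤ 1 / 4 := by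
    rw [show -π * τ.im = -(π * τ.im) by ring, Real.exp_neg]
    have : (4 : ℝ) ≤ rexp (π * τ.im) := by
      have := Real.add_one_le_exp (π * τ.im); linarith
    rw [one_div]
    exact inv_anti₀ (by norm_num) this
  have h1 : 0 < 1 - rexp (-π * τ.im) := by linarith
  rw [div_mul_eq_mul_div, div_le_iff₀ h1]
  linarith

lemma norm_thA_le {τ : ℂ} (hτ : 1 ≤ τ.im) : ‖thA τ‖ ≤ 5 / 3 := by
  have := norm_thA_sub_one_le hτ
  calc ‖thA τ‖ = ‖(thA τ - 1) + 1‖ := by ring_nf
    _ ≤ ‖thA τ - 1‖ + ‖(1 : ℂ)‖ := norm_add_le _ _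
    _ ≤ 5 / 3 := by rw [norm_one]; linarith

lemma norm_thA_ge {τ : ℂ} (hτ : 1 ≤ τ.im) : 1 / 3 ≤ ‖thA τ‖ := by
  have := norm_thA_sub_one_le hτ
  have h2 : ‖(1 : ℂ)‖ ≤ ‖thA τ‖ + ‖thA τ - 1‖ := by
    have := norm_sub_le (thA τ) (thA τ - 1)
    simpa using this
  rw [norm_one] at h2
  linarith

lemma thB_eq_thA (τ : ℂ) : thB τ = thA (τ + 1) := (thA_add_one τ).symm

lemma norm_thB_le {τ : ℂ} (hτ : 1 ≤ τ.im) : ‖thB τ‖ ≤ 5 / 3 := by
  rw [thB_eq_thA]; exact norm_thA_le (by simpa using hτ)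

lemma norm_thB_ge {τ : ℂ} (hτ : 1 ≤ τ.im) : 1 / 3 ≤ ‖thB τ‖ := by
  rw [thB_eq_thA]; exact norm_thA_ge (by simpa using hτ)

/-- The constant in the bound for `θ₂`. -/
def thCconst : ℝ := ∑' n : ℤ, ‖jacobiTheta₂_term n (Complex.I / 2) Complex.I‖

lemma summable_thCconst : Summable fun n : ℤ => ‖jacobiTheta₂_term n (Complex.I / 2) Complex.I‖ :=
  ((summable_jacobiTheta₂_term_iff (Complex.I / 2) Complex.I).mpr (by simp)).norm

lemma thCconst_nonneg : 0 ≤ thCconst := tsum_nonneg fun _ => norm_nonneg _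

lemma int_sq_add_nonneg (n : ℤ) : (0 : ℝ) ≤ (n : ℝ) ^ 2 + n := by
  have : (0 : ℤ) ≤ n ^ 2 + n := by nlinarith [sq_nonneg (2 * n + 1), Int.emod_two_eq_zero_or_one n,
    (Int.even_mul_succ_self n).two_dvd]
  exact_mod_cast this

lemma norm_term_half_le {τ : ℂ} (hτ : 1 ≤ τ.im) (n : ℤ) :
    ‖jacobiTheta₂_term n (τ / 2) τ‖ ≤ ‖jacobiTheta₂_term n (Complex.I / 2) Complex.I‖ := by
  rw [norm_jacobiTheta₂_term, norm_jacobiTheta₂_term, Real.exp_le_exp]
  have h1 : (τ / 2).im = τ.im / 2 := by simp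
  have h2 : (Complex.I / 2).im = 1 / 2 := by simp
  rw [h1, h2, Complex.I_im]
  have := int_sq_add_nonneg n
  have hpi := Real.pi_pos
  nlinarith [mul_nonneg (mul_nonneg hpi.le this) (sub_nonneg.mpr hτ)]

lemma norm_thC_le {τ : ℂ} (hτ : 1 ≤ τ.im) : ‖thC τ‖ ≤ thCconst * rexp (-π * τ.im / 4) := by
  have h0 : 0 < τ.im := by linarith
  unfold thC
  rw [norm_mul, Complex.norm_exp, mul_comm]
  have hre : (π * Complex.I * τ / 4).re = -π * τ.im / 4 := by
    simp [mul_comm]
  rw [hre]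
  refine mul_le_mul_of_nonneg_right ?_ (Real.exp_pos _).le
  have hs : Summable fun n : ℤ => ‖jacobiTheta₂_term n (τ / 2) τ‖ :=
    ((summable_jacobiTheta₂_term_iff (τ / 2) τ).mpr h0).norm
  calc ‖jacobiTheta₂ (τ / 2) τ‖ ≤ ∑' n : ℤ, ‖jacobiTheta₂_term n (τ / 2) τ‖ :=
        norm_tsum_le_tsum_norm hs
    _ ≤ thCconst := hs.tsum_le_tsum (fun n => norm_term_half_le hτ n) summable_thCconst

/-! ### Holomorphy -/

lemma differentiableAt_thA {τ : ℂ} (hτ : 0 < τ.im) : DifferentiableAt ℂ thA τ :=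
  differentiableAt_jacobiTheta₂_snd 0 hτ

lemma differentiableAt_thB {τ : ℂ} (hτ : 0 < τ.im) : DifferentiableAt ℂ thB τ :=
  differentiableAt_jacobiTheta₂_snd (1 / 2) hτ

lemma differentiableAt_thC {τ : ℂ} (hτ : 0 < τ.im) : DifferentiableAt ℂ thC τ := by
  unfold thC
  refine DifferentiableAt.mul (by fun_prop) ?_
  have h1 : HasFDerivAt (fun p : ℂ × ℂ => jacobiTheta₂ p.1 p.2) _ (τ / 2, τ) :=
    hasFDerivAt_jacobiTheta₂ (τ / 2) hτ
  have h2 : DifferentiableAt ℂ (fun t : ℂ => (t / 2, t)) τ := by fun_prop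
  exact DifferentiableAt.comp (g := fun p : ℂ × ℂ => jacobiTheta₂ p.1 p.2)
    (f := fun t : ℂ => (t / 2, t)) τ h1.differentiableAt h2

lemma mdifferentiable_of_differentiableAt {f : ℂ → ℂ}
    (hf : ∀ τ : ℂ, 0 < τ.im → DifferentiableAt ℂ f τ) : MDiff (fun z : ℍ => f z) := by
  rw [UpperHalfPlane.mdifferentiable_iff]
  intro w hw
  have hw' : 0 < w.im := hw
  refine ((hf w hw').differentiableWithinAt).congr (fun x hx => ?_) ?_
  · have hx' : 0 < x.im := hx
    simp [Function.comp_apply, ofComplex_apply_of_im_pos hx']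
  · simp [Function.comp_apply, ofComplex_apply_of_im_pos hw']

lemma mdifferentiable_th8 (i : Fin 3) : MDiff (th8 i) := by
  fin_cases i
  · exact mdifferentiable_of_differentiableAt (f := fun τ => thA τ ^ 8)
      fun τ h => (differentiableAt_thA h).pow 8
  · exact mdifferentiable_of_differentiableAt (f := fun τ => thB τ ^ 8)
      fun τ h => (differentiableAt_thB h).pow 8
  · exact mdifferentiable_of_differentiableAt (f := fun τ => thC τ ^ 8)
      fun τ h => (differentiableAt_thC h).pow 8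

/-! ### The product `(θ₂ θ₃ θ₄)⁸` -/

/-- `(θ₂ θ₃ θ₄)⁸`. -/
def thProd : ℍ → ℂ := th8 0 * th8 1 * th8 2

lemma thProd_apply (z : ℍ) : thProd z = thA z ^ 8 * thB z ^ 8 * thC z ^ 8 := rfl

lemma thProd_slash_S : thProd ∣[(12 : ℤ)] ModularGroup.S = thProd := by
  unfold thProd
  rw [show (12 : ℤ) = (4 + 4) + 4 by norm_num, mul_slash_SL2, mul_slash_SL2, th8_slash_S_zero,
    th8_slash_S_one, th8_slash_S_two]
  ext z; simp only [Pi.mul_apply]; ring

lemma thProd_slash_T : thProd ∣[(12 : ℤ)] ModularGroup.T = thProd := by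
  unfold thProd
  rw [show (12 : ℤ) = (4 + 4) + 4 by norm_num, mul_slash_SL2, mul_slash_SL2, th8_slash_T_zero,
    th8_slash_T_one, th8_slash_T_two]
  ext z; simp only [Pi.mul_apply]; ring

lemma mdifferentiable_thProd : MDiff thProd :=
  ((mdifferentiable_th8 0).mul (mdifferentiable_th8 1)).mul (mdifferentiable_th8 2)

lemma norm_thProd_le (z : ℍ) (hz : 1 ≤ z.im) :
    ‖thProd z‖ ≤ (5 / 3) ^ 8 * (5 / 3) ^ 8 * (thCconst * rexp (-π * z.im / 4)) ^ 8 := by
  have hz' : 1 ≤ (z : ℂ).im := hz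
  rw [thProd_apply, norm_mul, norm_mul, norm_pow, norm_pow, norm_pow]
  have hA := norm_thA_le hz'
  have hB := norm_thB_le hz'
  have hC : ‖thC z‖ ≤ thCconst * rexp (-π * z.im / 4) := norm_thC_le hz'
  gcongr

lemma isZeroAtImInfty_thProd : IsZeroAtImInfty thProd := by
  rw [UpperHalfPlane.isZeroAtImInfty_iff]
  intro ε hε
  -- choose A with the bound
  set K : ℝ := (5 / 3) ^ 8 * (5 / 3) ^ 8 * thCconst ^ 8 with hK
  have hK0 : 0 ≤ K := by have := thCconst_nonneg; positivity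
  have hlim : Tendsto (fun y : ℝ => K * rexp (-(2 * π) * y)) atTop (𝓝 (K * 0)) := by
    refine Tendsto.const_mul K ?_
    have : Tendsto (fun y : ℝ => -(2 * π) * y) atTop atBot := by
      refine Tendsto.const_mul_atTop_of_neg ?_ tendsto_id
      have := Real.pi_pos; linarith
    exact Real.tendsto_exp_atBot.comp this
  rw [mul_zero] at hlim
  have hev := hlim.eventually (eventually_le_nhds hε)
  obtain ⟨A, hA⟩ := (hev.and (eventually_ge_atTop 1)).exists
  obtain ⟨A', hA'⟩ := eventually_atTop.mp (hev.and (eventually_ge_atTop 1))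
  refine ⟨A', fun z hz => ?_⟩
  obtain ⟨h1, h2⟩ := hA' z.im hz
  refine (norm_thProd_le z h2).trans ?_
  have : (thCconst * rexp (-π * z.im / 4)) ^ 8 = thCconst ^ 8 * rexp (-(2 * π) * z.im) := by
    rw [mul_pow, ← Real.exp_nat_mul]; congr 2; push_cast; ring
  rw [this, ← mul_assoc]
  exact h1

/-- `(θ₂ θ₃ θ₄)⁸` as a cusp form of weight 12 and level 1. -/
def thProdCusp : CuspForm 𝒮ℒ 12 where
  toFun := thProd
  slash_action_eq' A hA := by
    obtain ⟨A, rfl⟩ := hA
    exact SlashInvariantForm.slash_action_generators_SL2Z thProd_slash_S thProd_slash_T A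
  holo' := mdifferentiable_thProd
  zero_at_cusps' hc := by
    rw [Subgroup.IsArithmetic.isCusp_iff_isCusp_SL2Z] at hc
    rw [OnePoint.isZeroAt_iff_forall_SL2Z hc]
    intro γ _
    rw [SlashInvariantForm.slash_action_generators_SL2Z thProd_slash_S thProd_slash_T]
    exact isZeroAtImInfty_thProd

lemma thC_I_sq : thC Complex.I ^ 2 = thB Complex.I ^ 2 := by
  have h := thB_inv_sq (τ := Complex.I) Complex.I_ne_zero
  have h1 : (-1 : ℂ) / Complex.I = Complex.I := by
    rw [div_eq_iff Complex.I_ne_zero, Complex.I_mul_I]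
  rw [h1] at h
  rw [h]; simp

lemma thProd_I_ne_zero : thProd (⟨Complex.I, by simp⟩ : ℍ) ≠ 0 := by
  rw [thProd_apply]
  have hI : (1 : ℝ) ≤ (Complex.I : ℂ).im := by simp
  have hA : thA Complex.I ≠ 0 := fun h => by
    have := norm_thA_ge hI; rw [h, norm_zero] at this; linarith
  have hB : thB Complex.I ≠ 0 := fun h => by
    have := norm_thB_ge hI; rw [h, norm_zero] at this; linarith
  have hC : thC Complex.I ≠ 0 := fun h => by
    have := thC_I_sq; rw [h] at this
    exact hB (by simpa using this.symm)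
  exact mul_ne_zero (mul_ne_zero (pow_ne_zero _ hA) (pow_ne_zero _ hB)) (pow_ne_zero _ hC)

/-- **ZF**: `(θ₂ θ₃ θ₄)⁸` has no zero on the upper half plane. -/
theorem thProd_ne_zero (z : ℍ) : thProd z ≠ 0 := by
  obtain ⟨c, hc⟩ := CuspForm.exists_smul_discriminant_of_weight_eq_twelve thProdCusp
  have hval : ∀ w : ℍ, thProd w = c * ModularForm.discriminant w := by
    intro w
    have := congrArg (fun f : CuspForm 𝒮ℒ 12 => f w) hc
    exact this.symm
  have hc0 : c ≠ 0 := by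
    rintro rfl
    exact thProd_I_ne_zero (by rw [hval]; simp)
  rw [hval]
  exact mul_ne_zero hc0 (ModularForm.discriminant_ne_zero z)

theorem thA_ne_zero (z : ℍ) : thA z ≠ 0 := fun h =>
  thProd_ne_zero z (by rw [thProd_apply, h]; simp)

theorem thB_ne_zero (z : ℍ) : thB z ≠ 0 := fun h =>
  thProd_ne_zero z (by rw [thProd_apply, h]; simp)

theorem thC_ne_zero (z : ℍ) : thC z ≠ 0 := fun h =>
  thProd_ne_zero z (by rw [thProd_apply, h]; simp)

end

end Fermat.Agent.S48.H668
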